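import Fermat.Agent.LT.T7.B981.H503.StepSSpec
import Fermat.Agent.LT.T7.H557.DescTriv

/-!
# Row LT, tower T7, node `B981.StepSC981` (cut of helper503, `T7/B981/H503/StepSSpec.lean`):
leaf SS.5 `PlacesC503` (helper963, OFF-MAIN, ADDITIVE)

    placesC963 (K K') : B981.SS503.PlacesC503 K K'        (UNCONDITIONAL, Mathlib + spec only)

`v = w ∩ 𝓞_K`; `f` = the inertia degree; `N w = (N v)^f`
(`Ideal.absNorm_eq_pow_inertiaDeg'_of_liesOver`); the places over `v` are the prime factors of
`v 𝓞_{K'}`; `∑ e f = [K' : K] = ℓ` (`Ideal.sum_ramification_inertia`).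
-/

set_option autoImplicit false
set_option linter.unusedSectionVars false
set_option linter.unusedVariables false
set_option linter.deprecated false
set_option linter.style.haveILetI false

open IsDedekindDomain NumberField

noncomputable section

namespace Fermat.Agent.LT.T7.H963

open Fermat.Agent.LT.T7 Fermat.Agent.LT.T7.B981.SS503

variable (K K' : Type) [Field K] [NumberField K] [Field K'] [NumberField K'] [Algebra K K']

/-- **LEAF SS.5 `PlacesC503`.** -/
theorem placesC963 : PlacesC503 K K' := by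
  classical
  intro ℓ hcyc w
  let v : HeightOneSpectrum (𝓞 K) := HeightOneSpectrum.under (𝓞 K) w
  have hv0 : v.asIdeal ≠ ⊥ := v.ne_bot
  haveI hvmax : v.asIdeal.IsMaximal := v.isMaximal
  haveI hwprime : w.asIdeal.IsPrime := w.isPrime
  have hover : ∀ w' : HeightOneSpectrum (𝓞 K'),
      PlaceOver K K' v w' ↔ w'.asIdeal ∈ Ideal.primesOver v.asIdeal (𝓞 K') := by
    intro w'
    rw [H557.placeOver_iff_557]
    constructor
    · intro h
      exact ⟨w'.isPrime, ⟨h⟩⟩
    · intro h
      exact h.2.over
  have hvw : PlaceOver K K' v w := (H557.placeOver_iff_557 v w).2 rfl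
  haveI hlo : w.asIdeal.LiesOver v.asIdeal := ((hover w).1 hvw).2
  -- the finite set of the places over `v`
  have hfin : {w' : HeightOneSpectrum (𝓞 K') | PlaceOver K K' v w'}.Finite := by
    have h1 : (Ideal.primesOver v.asIdeal (𝓞 K')).Finite :=
      IsDedekindDomain.primesOver_finite v.asIdeal (𝓞 K')
    refine Set.Finite.of_finite_image (f := HeightOneSpectrum.asIdeal) (h1.subset ?_) ?_
    · rintro _ ⟨w', hw', rfl⟩
      exact (hover w').1 hw'
    · intro a _ b _ h
      exact HeightOneSpectrum.ext h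
  -- the fundamental identity
  have hsum := Ideal.sum_ramification_inertia (𝓞 K') K K' hv0
  rw [hcyc.degree] at hsum
  have hmemF : ∀ P : Ideal (𝓞 K'), P ∈ IsDedekindDomain.primesOverFinset v.asIdeal (𝓞 K') ↔
      P ∈ Ideal.primesOver v.asIdeal (𝓞 K') :=
    fun P => IsDedekindDomain.mem_primesOverFinset_iff hv0 (𝓞 K')
  have hwF : w.asIdeal ∈ IsDedekindDomain.primesOverFinset v.asIdeal (𝓞 K') :=
    (hmemF _).2 ((hover w).1 hvw)
  have hpos : ∀ P ∈ IsDedekindDomain.primesOverFinset v.asIdeal (𝓞 K'),
      1 ≤ Ideal.ramificationIdx' v.asIdeal P * Ideal.inertiaDeg' v.asIdeal P := by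
    intro P hP
    have hP' := (hmemF P).1 hP
    haveI : P.IsPrime := hP'.1
    haveI : P.LiesOver v.asIdeal := hP'.2
    exact Right.one_le_mul
      (Nat.pos_iff_ne_zero.mpr (Ideal.IsDedekindDomain.ramificationIdx'_ne_zero_of_liesOver P hv0))
      (Nat.pos_iff_ne_zero.mpr (Ideal.inertiaDeg'_ne_zero v.asIdeal P))
  -- every prime over `v` is a place over `v`
  have hplace : ∀ P ∈ IsDedekindDomain.primesOverFinset v.asIdeal (𝓞 K'),
      ∃ w' : HeightOneSpectrum (𝓞 K'), w'.asIdeal = P ∧ PlaceOver K K' v w' := by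
    intro P hP
    have hP' := (hmemF P).1 hP
    have hP0 : P ≠ ⊥ := Ideal.ne_bot_of_mem_primesOver hv0 hP'
    refine ⟨⟨P, hP'.1, hP0⟩, rfl, (hover _).2 hP'⟩
  refine ⟨v, Ideal.inertiaDeg' v.asIdeal w.asIdeal, hfin.toFinset, ⟨hvw, ?_⟩, ?_, ?_, ?_⟩
  · exact Ideal.absNorm_eq_pow_inertiaDeg'_of_liesOver w.asIdeal v.asIdeal v.isPrime hv0
  · intro v' hv'
    apply HeightOneSpectrum.ext
    rw [(H557.placeOver_iff_557 v' w).1 hv']
    rfl
  · intro w'
    rw [Set.Finite.mem_toFinset]
    rfl
  · rintro ⟨x, hxv, hxw⟩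
    -- `w` is unramified over `v`
    have he : Ideal.ramificationIdx' v.asIdeal w.asIdeal = 1 := by
      have h1 : Ideal.ramificationIdx' v.asIdeal w.asIdeal ≠ 0 :=
        Ideal.IsDedekindDomain.ramificationIdx'_ne_zero_of_liesOver w.asIdeal hv0
      have h2 : Ideal.ramificationIdx' v.asIdeal w.asIdeal < 2 := by
        apply Ideal.ramificationIdx'_lt
        intro hle
        exact hxw (hle (Ideal.mem_map_of_mem _ hxv))
      omega
    constructor
    · intro huniq
      have hF : IsDedekindDomain.primesOverFinset v.asIdeal (𝓞 K') = {w.asIdeal} := by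
        apply Finset.eq_singleton_iff_unique_mem.2
        refine ⟨hwF, fun P hP => ?_⟩
        obtain ⟨w', rfl, hw'⟩ := hplace P hP
        rw [huniq w' hw']
      rw [hF, Finset.sum_singleton, he, one_mul] at hsum
      exact hsum
    · intro u hu hinj
      set F := IsDedekindDomain.primesOverFinset v.asIdeal (𝓞 K') with hFdef
      set U : Finset (Ideal (𝓞 K')) := (Finset.range ℓ).image (fun j => (u j).asIdeal) with hU
      have hUF : U ⊆ F := by
        intro P hP
        obtain ⟨j, _, rfl⟩ := Finset.mem_image.1 hP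
        exact (hmemF _).2 ((hover (u j)).1 (hu j))
      have hUcard : U.card = ℓ := by
        rw [hU, Finset.card_image_of_injOn, Finset.card_range]
        intro a ha b hb hab
        have ha' : a < ℓ := Finset.mem_range.1 ha
        have hb' : b < ℓ := Finset.mem_range.1 hb
        exact hinj a b ha' hb' (HeightOneSpectrum.ext hab)
      have hcardle : F.card ≤ ℓ := by
        calc F.card = ∑ P ∈ F, 1 := by rw [Finset.card_eq_sum_ones]
          _ ≤ ∑ P ∈ F, Ideal.ramificationIdx' v.asIdeal P * Ideal.inertiaDeg' v.asIdeal P :=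
              Finset.sum_le_sum hpos
          _ = ℓ := hsum
      have hFU : U = F := Finset.eq_of_subset_of_card_le hUF (by rw [hUcard]; exact hcardle)
      have hFcard : F.card = ℓ := by rw [← hFU, hUcard]
      -- every term is `1`
      have hterm : ∀ P ∈ F,
          Ideal.ramificationIdx' v.asIdeal P * Ideal.inertiaDeg' v.asIdeal P = 1 := by
        by_contra hcon
        push Not at hcon
        obtain ⟨P, hP, hne⟩ := hcon
        have hlt : ∑ P ∈ F, 1
            < ∑ P ∈ F, Ideal.ramificationIdx' v.asIdeal P * Ideal.inertiaDeg' v.asIdeal P := by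
          refine Finset.sum_lt_sum hpos ⟨P, hP, ?_⟩
          have := hpos P hP
          omega
        rw [hsum, ← Finset.card_eq_sum_ones, hFcard] at hlt
        exact lt_irrefl _ hlt
      have hw1 := hterm w.asIdeal hwF
      rw [he, one_mul] at hw1
      refine ⟨hw1, ?_⟩
      have hwU : w.asIdeal ∈ U := by rw [hFU]; exact hwF
      obtain ⟨j, hj, hjw⟩ := Finset.mem_image.1 hwU
      exact ⟨j, Finset.mem_range.1 hj, HeightOneSpectrum.ext hjw⟩

end Fermat.Agent.LT.T7.H963
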