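import Fermat.Agent.LT.T7.Level2
import Fermat.Agent.LT.H963.Cyclic
import Fermat.Agent.LT.H963.SimpleAbs

/-!
# Row LT, tower T7, node T7.L2.2 SPEC-UP: MULTIPLICITY ONE IN MODULE FORM (helper963, OFF-MAIN)

ADDITIVE.  Vocabulary: A0, `T7/Level2.lean` (helper797@819237e8b), `T2/H941` (helper941@0e890d1ec),
byte-identical copies.  Consumer: `T7/H616/RegTrace3.lean` (hypothesis `hirr`), leaf-node
`NonVanC` of the cut of helper736.

## The statement

`SimpleC K`: `K` totally complex, `𝔫 ≠ ⊥` a level, `r` the generator of the discrete ray,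
`o 0, …, o (l-1)` places dividing `𝔫`, `C` eigen-data which are spherical of parameter `0` at
infinity.  (All leaves carry these hypotheses: for a field with a real place `MeanEig` is vacuous
at the real place and `ClassFinC`, `CompressC` would be false; for an arbitrary `r` the operators
need not preserve the invariance under `r`.)  The CLASS `V_C` = the functions `ψ` with
`IsEigFn 𝔫 r l o ψ C` (cusp functions of level `U(𝔫)`, Iwahori-invariant along the orbit, joint
eigenfunctions outside `𝔫` and at infinity).  For `ψ ≠ 0` and `ψ'` in the class, `ψ'` is REACHED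
from `ψ` (`Reach`): it is obtained from `ψ` by finitely many linear combinations and operators

* `cosetOp H`, `H` a full system of representatives of `U(𝔫) g U(𝔫) / U(𝔫)`, `g` BAD
  (`IsBadAt`: trivial at infinity, outside `𝔫` and along the orbit);
* `cosetOp H`, `H` a full system of representatives of `I h I / I` at a place `o j` of the orbit
  (`IsIwDblSystem`; ALL double cosets of the Iwahori subgroup: the commutative algebra generated
  by `𝒰` and `Z` does not act irreducibly on the Iwahori invariants).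

So a set of functions which contains a non-zero function of the class and is stable under linear
combinations and these operators contains the class: `hirr` of `RegTrace3`.

TRUE: the class is `π^{U♮}` for ONE cuspidal representation `π = ⊗ π_v` (strong multiplicity one
and multiplicity one), `U♮ = ∏_{v bad} U(𝔫)_v × ∏_j I_{o j}`, and `π_v^{U_v}` is a simple module
of the Hecke algebra of `(GL₂(K_v), U_v)` for an irreducible `π_v`.

## The cut (PROVED top `simpleC_of`)

    simpleC_of : (K totally complex) → T2.FrameExists K → PairC K → ClassFinC K → ClassLinC K →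
        ClassOpC K → MatchPC K P → CompressC K P → SimpleC K

for ANY set `P` of elements of `GL₂(𝔸_K)`.  Two instances:

* `P = everything`: `MatchPC` is `T2.H941.MatchC` (CLOSED, helper941) + a prime outside the level
  (`GoodPrimeC`): `simpleC_of_compress`; the leaf `CompressC K ⊤` then needs the spherical functions
  at the unramified AND at the infinite places and the decomposition of an arbitrary adelic
  element;
* `P = IsFinSupp` (trivial at infinity and outside a finite set of finite places): `MatchPC` is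
  what the proof of T2.10 gives (all its translations are unipotent or diagonal elements at
  finitely many finite places) but not what `MatchC` states; `CompressC K IsFinSupp` needs the
  finite places only.

Leaves:
* `ClassFinC`: the class lies in a finite-dimensional space (T2: Hilbert--Schmidt bound).
* `ClassLinC`: the class is stable under sums and scalar multiples (linearity of the mean value
  property: `T2/H546/MeanLin`, `T2/H886/CuspAlg`).
* `ClassOpC`: the class is stable under the two kinds of operators.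
* `CompressC P` (the adjunction): if `χ` in the class is orthogonal to every function reached
  from `ψ` then `⟨R(g) ψ, χ⟩ = 0` for `g ∈ P`.  Proof: peel the local components of `g` one at a
  time from the right.  At a place of `S`: `⟨R(a h) f, χ⟩ = |H|⁻¹ ⟨R(a) (cosetOp H f), χ⟩` for `a`
  trivial at the place (`χ`, `f` invariant; `PairC`), `cosetOp H f` is reached.  At an unramified
  place `v`: `F(h) = ⟨R(a h) f, χ⟩` is bi-invariant under `GL₂(𝒪_v)` and an eigenfunction of
  `T_v`, `S_v`: `F(h) = ω_v(h) F(1)` (Cartan decomposition + the recursion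
  `q F_{d+1} = √q a F_d - b F_{d-1}`).  At an infinite place: `F(k₁ torus(d) k₂ z) = F(torus d)
  = (d / sinh d) F(1)` by the mean value property (Fubini).
-/

set_option autoImplicit false
set_option linter.style.haveILetI false
set_option linter.unusedSectionVars false
set_option linter.unusedVariables false

open IsDedekindDomain NumberField MeasureTheory AutomorphicForm
open Fermat.Agent.LT.H556.A0
open scoped InnerProductSpace ComplexConjugate

noncomputable section

namespace Fermat.Agent.LT.T7.H963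

open Fermat.Agent.LT.T2.H941 Fermat.Agent.LT.H963

variable {K : Type} [Field K] [NumberField K]

attribute [local instance] Fermat.Agent.LT.T2.borelG

attribute [-instance] CStarModule.toInner

/-! ## 1. Vocabulary -/

/-- `g` is supported at the BAD places of the level `𝔫` for the orbit `o 0, …, o (l-1)`: trivial
at the infinite places, at the finite places prime to `𝔫` and along the orbit
(`L2Data.IsBad` for `𝔫 = 𝔑₀`, `isBadAt_of_isBad`). -/
def IsBadAt (𝔫 : Ideal (𝓞 K)) (l : ℕ) (o : ℕ → HeightOneSpectrum (𝓞 K)) (g : G K) : Prop :=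
  (∀ w : InfinitePlace K, TrivAtInf w g) ∧
    ∀ v : HeightOneSpectrum (𝓞 K), (¬ v.asIdeal ∣ 𝔫 ∨ ∃ j < l, v = o j) → TrivAtFin v g

/-- An element of the Iwahori subgroup at `w` (supported at `w`). -/
def IsIwElt (w : HeightOneSpectrum (𝓞 K)) (k : G K) : Prop :=
  IsLocalAtFin w k ∧ T5.InIwahori w k

/-- A full system of representatives of `I_w h I_w / I_w`. -/
def IsIwDblSystem (w : HeightOneSpectrum (𝓞 K)) (h : G K) (H : Finset (G K)) : Prop :=
  (∀ x ∈ H, ∃ k₁ k₂ : G K, IsIwElt w k₁ ∧ IsIwElt w k₂ ∧ x = k₁ * h * k₂) ∧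
    (∀ x ∈ H, ∀ x' ∈ H, x ≠ x' → ¬ T5.InIwahori w (x⁻¹ * x')) ∧
    ∀ k : G K, IsIwElt w k → ∃ x ∈ H, T5.InIwahori w (x⁻¹ * (k * h))

/-- `g` is trivial at the infinite places and outside a finite set of finite places. -/
def IsFinSupp (g : G K) : Prop :=
  (∀ w : InfinitePlace K, TrivAtInf w g) ∧
    ∃ T : Finset (HeightOneSpectrum (𝓞 K)), ∀ v : HeightOneSpectrum (𝓞 K), v ∉ T → TrivAtFin v g

/-- **REACHED**: the functions obtained from `ψ` by linear combinations and the Hecke operators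
of the level at the bad places and along the orbit. -/
inductive Reach (𝔫 : Ideal (𝓞 K)) (l : ℕ) (o : ℕ → HeightOneSpectrum (𝓞 K)) (ψ : G K → ℂ) :
    (G K → ℂ) → Prop
  | base : Reach 𝔫 l o ψ ψ
  | add {f f' : G K → ℂ} : Reach 𝔫 l o ψ f → Reach 𝔫 l o ψ f' →
      Reach 𝔫 l o ψ (fun x => f x + f' x)
  | smul (c : ℂ) {f : G K → ℂ} : Reach 𝔫 l o ψ f → Reach 𝔫 l o ψ (fun x => c * f x)
  | bad {f : G K → ℂ} (g : G K) (H : Finset (G K)) : IsBadAt 𝔫 l o g →
      IsDblCosetSystem 𝔫 g H → Reach 𝔫 l o ψ f → Reach 𝔫 l o ψ (cosetOp H f)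
  | iw {f : G K → ℂ} (j : ℕ) (h : G K) (H : Finset (G K)) : j < l → IsLocalAtFin (o j) h →
      IsIwDblSystem (o j) h H → Reach 𝔫 l o ψ f → Reach 𝔫 l o ψ (cosetOp H f)

/-- The bad elements of the data of level 2 are bad for the base level. -/
theorem isBadAt_of_isBad {K₀ : Type} [Field K₀] [NumberField K₀] [Algebra K₀ K] {ℓ : ℕ}
    {Φ : HeckeEigensystem K ℂ} {Dt : L2Data K₀ K} (hDt : IsL2Data ℓ Φ Dt) {g : G K}
    (hg : Dt.IsBad g) : IsBadAt Dt.𝔑₀ ℓ Dt.o g := by
  refine ⟨hg.1, fun v hv => hg.2 v ?_⟩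
  rcases hv with hv | ⟨j, hj, rfl⟩
  · exact Or.inl fun hmem => hv ((hDt.mem_S' v).1 hmem)
  · exact Or.inr ⟨j, by rw [hDt.deg]; exact hj, rfl⟩

/-! ## 2. The node and its leaves -/

variable (K)

/-- **NODE: MULTIPLICITY ONE IN MODULE FORM.**  See the header. -/
def SimpleC : Prop :=
  (∀ w : InfinitePlace K, w.IsComplex) →
  ∀ (𝔫 : Ideal (𝓞 K)) (r : G K) (l : ℕ) (o : ℕ → HeightOneSpectrum (𝓞 K)) (C : EigData K),
    𝔫 ≠ ⊥ → T5.IsRayGen r → (∀ j < l, (o j).asIdeal ∣ 𝔫) → C.IsSph0 →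
    ∀ ψ ψ' : G K → ℂ, IsEigFn 𝔫 r l o ψ C → IsEigFn 𝔫 r l o ψ' C → (∃ x : G K, ψ x ≠ 0) →
      Reach 𝔫 l o ψ ψ'

/-- **LEAF: the class is contained in a finite-dimensional space.** -/
def ClassFinC : Prop :=
  (∀ w : InfinitePlace K, w.IsComplex) →
  ∀ (𝔫 : Ideal (𝓞 K)) (r : G K) (l : ℕ) (o : ℕ → HeightOneSpectrum (𝓞 K)) (C : EigData K),
    𝔫 ≠ ⊥ → T5.IsRayGen r → C.IsSph0 →
    ∃ W : Submodule ℂ (G K → ℂ), Module.Finite ℂ W ∧
      ∀ ψ : G K → ℂ, IsEigFn 𝔫 r l o ψ C → ψ ∈ W

/-- **LEAF: the class is stable under sums and scalar multiples.** -/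
def ClassLinC : Prop :=
  ∀ (𝔫 : Ideal (𝓞 K)) (r : G K) (l : ℕ) (o : ℕ → HeightOneSpectrum (𝓞 K)) (C : EigData K),
    (∀ ψ ψ' : G K → ℂ, IsEigFn 𝔫 r l o ψ C → IsEigFn 𝔫 r l o ψ' C →
      IsEigFn 𝔫 r l o (fun x => ψ x + ψ' x) C) ∧
    ∀ (c : ℂ) (ψ : G K → ℂ), IsEigFn 𝔫 r l o ψ C → IsEigFn 𝔫 r l o (fun x => c * ψ x) C

/-- **LEAF: the class is stable under the Hecke operators at the bad places and along the
orbit.** -/
def ClassOpC : Prop :=
  ∀ (𝔫 : Ideal (𝓞 K)) (r : G K) (l : ℕ) (o : ℕ → HeightOneSpectrum (𝓞 K)) (C : EigData K),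
    𝔫 ≠ ⊥ → T5.IsRayGen r → (∀ j < l, (o j).asIdeal ∣ 𝔫) →
    ∀ ψ : G K → ℂ, IsEigFn 𝔫 r l o ψ C →
      (∀ (g : G K) (H : Finset (G K)), IsBadAt 𝔫 l o g → IsDblCosetSystem 𝔫 g H →
        IsEigFn 𝔫 r l o (cosetOp H ψ) C) ∧
      ∀ (j : ℕ) (h : G K) (H : Finset (G K)), j < l → IsLocalAtFin (o j) h →
        IsIwDblSystem (o j) h H → IsEigFn 𝔫 r l o (cosetOp H ψ) C

/-- **LEAF: MATCH with translations in `P`** (for `P = everything`: `T2.H941.MatchC`). -/
def MatchPC (P : G K → Prop) : Prop :=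
  ∀ (π : HeckeEigensystem K ℂ) (φ φ' : G K → ℂ),
    IsSph0CuspFormFor π φ → IsSph0CuspFormFor π φ' →
    ∃ (n n' : ℕ) (c : Fin n → ℂ) (g : Fin n → G K) (c' : Fin n' → ℂ) (g' : Fin n' → G K),
      (∀ i j, P ((g' j)⁻¹ * g i)) ∧ lin c g φ = lin c' g' φ' ∧ ∃ x : G K, lin c g φ x ≠ 0

/-- **LEAF: COMPRESSION (the adjunction).**  See the header. -/
def CompressC (P : G K → Prop) : Prop :=
  (∀ w : InfinitePlace K, w.IsComplex) →
  ∀ (F : T2.Frame K) (𝔫 : Ideal (𝓞 K)) (r : G K) (l : ℕ) (o : ℕ → HeightOneSpectrum (𝓞 K))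
    (C : EigData K), 𝔫 ≠ ⊥ → T5.IsRayGen r → (∀ j < l, (o j).asIdeal ∣ 𝔫) → C.IsSph0 →
    ∀ ψ χ : G K → ℂ, IsEigFn 𝔫 r l o ψ C → IsEigFn 𝔫 r l o χ C →
      (∀ f : G K → ℂ, Reach 𝔫 l o ψ f → T2.pair F f χ = 0) →
      ∀ g : G K, P g → T2.pair F (rt g ψ) χ = 0

/-- **LEAF: a prime outside the level.** -/
def GoodPrimeC : Prop :=
  ∀ 𝔫 : Ideal (𝓞 K), 𝔫 ≠ ⊥ → ∃ v : HeightOneSpectrum (𝓞 K), ¬ v.asIdeal ∣ 𝔫

variable {K}

/-! ## 3. The class and the forms of A0 -/

/-- The eigensystem of the level `𝔫` with the eigenvalues of `C`. -/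
def eigSys (𝔫 : Ideal (𝓞 K)) (h𝔫 : 𝔫 ≠ ⊥) (C : EigData K) : HeckeEigensystem K ℂ where
  level := 𝔫
  level_ne_bot := h𝔫
  a := C.a
  b := C.b

/-- A non-zero function of the class is a form of A0 for the eigensystem of the level. -/
theorem isSph0_of_isEigFn (hcx : ∀ w : InfinitePlace K, w.IsComplex) {𝔫 : Ideal (𝓞 K)}
    (h𝔫 : 𝔫 ≠ ⊥) {r : G K} {l : ℕ} {o : ℕ → HeightOneSpectrum (𝓞 K)} {C : EigData K}
    (hC : C.IsSph0) {ψ : G K → ℂ} (hψ : IsEigFn 𝔫 r l o ψ C) (hne : ∃ x : G K, ψ x ≠ 0) :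
    IsSph0CuspFormFor (eigSys 𝔫 h𝔫 C) ψ where
  cont := hψ.inv.cusp.cont
  bdd := hψ.inv.cusp.bdd
  ne_zero := hne
  left_inv := hψ.inv.cusp.aut.left_inv
  level_inv := hψ.inv.cusp.aut.level_inv
  arch_scalar := hψ.inv.arch_scalar
  arch_compact := fun w k hk g => by
    have h := hψ.inv.cusp.aut.arch_compact w k hk g
    rw [h]
    show (1 : ℂ) * ψ g = ψ g
    rw [one_mul]
  mean_complex := fun w _ d hd Y hY g => by
    rw [hψ.mean w d hd Y hY g, hC w d hd]
    rfl
  mean_real := fun w hw => absurd hw (InfinitePlace.not_isReal_iff_isComplex.mpr (hcx w))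
  cuspidal := hψ.inv.cusp.cuspidal
  hecke := fun v hv => hψ.hecke v hv

/-- The functions of the class lie in `IsAut0`. -/
theorem isAut0_of_isEigFn (hcx : ∀ w : InfinitePlace K, w.IsComplex) {𝔫 : Ideal (𝓞 K)}
    (h𝔫 : 𝔫 ≠ ⊥) {r : G K} {l : ℕ} {o : ℕ → HeightOneSpectrum (𝓞 K)} {C : EigData K}
    (hC : C.IsSph0) {ψ : G K → ℂ} (hψ : IsEigFn 𝔫 r l o ψ C) : IsAut0 ψ := by
  classical
  by_cases hne : ∃ x : G K, ψ x ≠ 0
  · exact aut0_closed K _ ψ (isSph0_of_isEigFn hcx h𝔫 hC hψ hne)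
  · have h0 : ψ = fun _ => 0 := by
      funext x
      by_contra hx
      exact hne ⟨x, hx⟩
    rw [h0]
    exact isAut0_zero

/-! ## 4. The assembly -/

/-- **THE TOP OF THE NODE**: multiplicity one in module form from its leaves, for any set `P` of
translations. -/
theorem simpleC_of (P : G K → Prop) (hF : T2.FrameExists K) (hP : PairC K)
    (hfin : ClassFinC K) (hlin : ClassLinC K) (hop : ClassOpC K)
    (hM : MatchPC K P) (hCp : CompressC K P) : SimpleC K := by
  classical
  intro hcx 𝔫 r l o C h𝔫 hr ho hC ψ ψ' hψ hψ' hne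
  obtain ⟨F⟩ := hF
  obtain ⟨W, hWfin, hW⟩ := hfin hcx 𝔫 r l o C h𝔫 hr hC
  obtain ⟨hadd, hsmul⟩ := hlin 𝔫 r l o C
  have hA : ∀ f : G K → ℂ, IsEigFn 𝔫 r l o f C → IsAut0 f :=
    fun f hf => isAut0_of_isEigFn hcx h𝔫 hC hf
  have hreach : ∀ f : G K → ℂ, Reach 𝔫 l o ψ f → IsEigFn 𝔫 r l o f C := by
    intro f hf
    induction hf with
    | base => exact hψ
    | add _ _ ih ih' => exact hadd _ _ ih ih'
    | smul c _ ih => exact hsmul c _ ih
    | bad g H hg hH _ ih => exact (hop 𝔫 r l o C h𝔫 hr ho _ ih).1 g H hg hH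
    | iw j h H hj hh hH _ ih => exact (hop 𝔫 r l o C h𝔫 hr ho _ ih).2 j h H hj hh hH
  have hzero : (fun x : G K => (0 : ℂ) * ψ x) = fun _ => (0 : ℂ) := by
    funext x
    rw [zero_mul]
  -- the class and the reached functions as subspaces of the pre-Hilbert space
  let V : Submodule ℂ (Sp963 F hP) :=
    { carrier := {x | IsEigFn 𝔫 r l o (Sp963.fn F hP x) C}
      zero_mem' := by
        show IsEigFn 𝔫 r l o (fun _ : G K => (0 : ℂ)) C
        rw [← hzero]
        exact hsmul 0 ψ hψ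
      add_mem' := fun {a b} ha hb => hadd _ _ ha hb
      smul_mem' := fun c a ha => hsmul c _ ha }
  let A : Submodule ℂ (Sp963 F hP) :=
    { carrier := {x | Reach 𝔫 l o ψ (Sp963.fn F hP x)}
      zero_mem' := by
        show Reach 𝔫 l o ψ (fun _ : G K => (0 : ℂ))
        rw [← hzero]
        exact Reach.smul 0 Reach.base
      add_mem' := fun {a b} ha hb => Reach.add ha hb
      smul_mem' := fun c a ha => Reach.smul c ha }
  have hVmem : ∀ x : Sp963 F hP, x ∈ V ↔ IsEigFn 𝔫 r l o (Sp963.fn F hP x) C := fun _ => Iff.rfl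
  have hAmem : ∀ x : Sp963 F hP, x ∈ A ↔ Reach 𝔫 l o ψ (Sp963.fn F hP x) := fun _ => Iff.rfl
  have hAV : A ≤ V := fun x hx => hreach _ hx
  haveI hWfin' : Module.Finite ℂ W := hWfin
  have hVfd : FiniteDimensional ℂ V := by
    let j : V →ₗ[ℂ] W := (Sp963.fnL F hP).restrict (p := V) (q := W) (fun x hx => hW _ hx)
    have hj : Function.Injective j := by
      intro a b hab
      have h1 : ((j a : W) : G K → ℂ) = ((j b : W) : G K → ℂ) := by rw [hab]
      exact Subtype.ext (Sp963.ext F hP h1)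
    exact FiniteDimensional.of_injective j hj
  haveI : FiniteDimensional ℂ V := hVfd
  have hne0 : ∀ x : Sp963 F hP, x ≠ 0 → ∃ y : G K, Sp963.fn F hP x y ≠ 0 := by
    intro x hx
    by_contra h
    apply hx
    apply Sp963.ext F hP
    funext y
    by_contra hy
    exact h ⟨y, hy⟩
  set e : Sp963 F hP := Sp963.mk F hP (hA ψ hψ) with he
  have hlin : ∀ {n : ℕ} (c : Fin n → ℂ) (g : Fin n → G K) (x : Sp963 F hP),
      Sp963.fn F hP (∑ i, c i • rhoHom963 F hP (g i) x) = lin c g (Sp963.fn F hP x) := by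
    intro n c g x
    rw [Sp963.fn_sum]
    rfl
  have key : A = V := by
    refine simple_of_match963 (rhoHom963 F hP) P V A hAV e ?_ ?_
    · intro e₂ he₂V he₂0
      have hf₂ : IsSph0CuspFormFor (eigSys 𝔫 h𝔫 C) (Sp963.fn F hP e₂) :=
        isSph0_of_isEigFn hcx h𝔫 hC ((hVmem e₂).1 he₂V) (hne0 e₂ he₂0)
      obtain ⟨n, n', c, g, c', g', hPij, heq, x0, hx0⟩ :=
        hM (eigSys 𝔫 h𝔫 C) ψ (Sp963.fn F hP e₂) (isSph0_of_isEigFn hcx h𝔫 hC hψ hne) hf₂
      refine ⟨n, n', c, g, c', g', hPij, ?_, ?_⟩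
      · apply Sp963.ext F hP
        rw [hlin c g e, hlin c' g' e₂]
        exact heq
      · intro h0
        apply hx0
        have h1 := congrArg (Sp963.fn F hP) h0
        rw [hlin c g e] at h1
        exact congrFun h1 x0
    · intro e₂ he₂V he₂A g hg
      refine (Sp963.inner_def F hP e₂ (rhoHom963 F hP g e)).trans ?_
      refine hCp hcx F 𝔫 r l o C h𝔫 hr ho hC ψ (Sp963.fn F hP e₂) hψ ((hVmem e₂).1 he₂V) ?_ g hg
      intro f hf
      have h1 := he₂A (Sp963.mk F hP (hA f (hreach f hf))) ((hAmem _).2 hf)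
      exact (Sp963.inner_def F hP e₂ (Sp963.mk F hP (hA f (hreach f hf)))).symm.trans h1
  have h' : Sp963.mk F hP (hA ψ' hψ') ∈ V := (hVmem _).2 hψ'
  rw [← key] at h'
  exact (hAmem _).1 h'

/-- `MatchC` (T2.10, CLOSED) gives `MatchPC` for `P = everything`, given a prime outside the
level. -/
theorem matchPC_of_matchC (hcx : ∀ w : InfinitePlace K, w.IsComplex) (hG : GoodPrimeC K)
    (hM : MatchC K) : MatchPC K (fun _ => True) := by
  intro π φ φ' hφ hφ'
  obtain ⟨v₀, hv₀⟩ := hG π.level π.level_ne_bot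
  have hpar : SameParity φ φ' := fun w hw =>
    absurd hw (InfinitePlace.not_isReal_iff_isComplex.mpr (hcx w))
  have hag : HeckeEigensystem.AgreesAwayFromFinite π π := ⟨∅, fun v _ => ⟨rfl, rfl⟩⟩
  obtain ⟨n, n', c, g, c', g', -, -, heq, hx⟩ := hM π π φ φ' hφ hφ' hpar hag v₀ hv₀ hv₀
  exact ⟨n, n', c, g, c', g', fun _ _ => trivial, heq, hx⟩

/-- **The node on the closed station T2.10**: multiplicity one in module form from the
finiteness, the stability and the compression leaves. -/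
theorem simpleC_of_compress (hG : GoodPrimeC K) (hfin : ClassFinC K) (hlin : ClassLinC K)
    (hop : ClassOpC K) (hCp : CompressC K (fun _ => True)) : SimpleC K := fun hcx =>
  simpleC_of (fun _ => True) (frameExists_closed K (T1.t1Out K)) (pair_uncond K) hfin hlin hop
    (matchPC_of_matchC hcx hG (match_uncond_totCplx K hcx)) hCp hcx

end Fermat.Agent.LT.T7.H963
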