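import Fermat.Agent.LT.T7.H963.Avg
import Fermat.Agent.LT.T7.H616.ClassModelSpec

/-!
# Row LT, tower T7, node `ClassModelC` (helper616): the leaves CM.01 `FinDimC616`, CM.03
`StabGC616`, CM.09 `SimpleC616` from the leaves of the node `SimpleC` (helper963, OFF-MAIN,
ADDITIVE)

    finDimC616_of  : H963.ClassFinC K' → CM616.FinDimC616 K K'
    stabGC616_of   : H963.ClassOpC K'  → CM616.StabGC616 K K'
    simpleC616_of  : H963.SimpleC K' → H963.ClassLinC K' → H963.ClassOpC K' → CM616.SimpleC616 K K'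

The context `Ctx616` gives the hypotheses of the core statements: `K'` is totally complex
(`IsReal.comap`), `𝔑₀ ≠ ⊥` (`𝔑₀ ≥ (𝔫 1) 𝒪_{K'}`, `𝔫 1 ≠ ⊥`), `r` is the generator of the
discrete ray (`frame'`), the orbit divides `𝔑₀` (`orbit_level`, `mem_S'`), `eigOf Φ` is spherical
of parameter `0`.
-/

set_option autoImplicit false
set_option linter.unusedSectionVars false
set_option linter.unusedVariables false

open IsDedekindDomain NumberField MeasureTheory AutomorphicForm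
open Fermat.Agent.LT.H556.A0

noncomputable section

namespace Fermat.Agent.LT.T7.H963

open Fermat.Agent.LT.T7.SU736 Fermat.Agent.LT.T7.CM616 Fermat.Agent.LT.H129
  Fermat.Agent.LT.T2.H333

variable {K K' : Type} [Field K] [NumberField K] [Field K'] [NumberField K'] [Algebra K K']

/-! ## 1. The context -/

theorem totCplx_up963 (h : TotCplx K) : ∀ w : InfinitePlace K', w.IsComplex := by
  intro w
  rw [← InfinitePlace.not_isReal_iff_isComplex]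
  intro hw
  have h1 := InfinitePlace.IsReal.comap (algebraMap K K') hw
  exact InfinitePlace.not_isReal_iff_isComplex.mpr (h _) h1

theorem isBad_one963 (Dt : L2Data K K') : Dt.IsBad (1 : G K') :=
  ⟨fun w => (trivAtInf_iff129 w 1).2 (map_one _), fun v _ => finComp_one333 v⟩

theorem eigOf_isSph0963 (Φ : HeckeEigensystem K' ℂ) : (eigOf Φ).IsSph0 := fun _ _ _ => rfl

theorem level_ne_bot963 {ℓ : ℕ} {Φ : HeckeEigensystem K' ℂ} {Dt : L2Data K K'}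
    (hDt : IsL2Data ℓ Φ Dt) : Dt.𝔑₀ ≠ ⊥ := by
  intro h0
  have h1 := hDt.level_g 1 (isBad_one963 Dt)
  rw [h0, le_bot_iff] at h1
  have h2 : Dt.𝔫 1 ≠ ⊥ := (hDt.comp 1 (isBad_one963 Dt)).level_ne
  apply h2
  have hinj : Function.Injective (algebraMap (𝓞 K) (𝓞 K')) :=
    FaithfulSMul.algebraMap_injective (𝓞 K) (𝓞 K')
  exact (Ideal.map_eq_bot_iff_of_injective hinj).1 h1

theorem rayGen963 {ℓ : ℕ} {Φ : HeckeEigensystem K' ℂ} {Dt : L2Data K K'}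
    (hDt : IsL2Data ℓ Φ Dt) : T5.IsRayGen Dt.R'.r :=
  (hDt.comp 1 (isBad_one963 Dt)).frame'.ray

theorem orbit_dvd963 {ℓ : ℕ} {Φ : HeckeEigensystem K' ℂ} {Dt : L2Data K K'}
    (hDt : IsL2Data ℓ Φ Dt) : ∀ j < ℓ, (Dt.o j).asIdeal ∣ Dt.𝔑₀ :=
  fun j _ => (hDt.mem_S' (Dt.o j)).1 (hDt.orbit_level j)

/-- `IsBadAt` for the base level is `IsBad`. -/
theorem isBad_of_isBadAt963 {ℓ : ℕ} {Φ : HeckeEigensystem K' ℂ} {Dt : L2Data K K'}
    (hDt : IsL2Data ℓ Φ Dt) {g : G K'} (hg : IsBadAt Dt.𝔑₀ ℓ Dt.o g) : Dt.IsBad g := by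
  refine ⟨hg.1, fun v hv => hg.2 v ?_⟩
  rcases hv with hv | ⟨j, hj, rfl⟩
  · exact Or.inl fun hdvd => hv ((hDt.mem_S' v).2 hdvd)
  · exact Or.inr ⟨j, by rw [← hDt.deg]; exact hj, rfl⟩

/-! ## 2. The leaves of `ClassModelC` -/

/-- **CM.01 `FinDimC616`** from `ClassFinC`. -/
theorem finDimC616_of (h : ClassFinC K') : FinDimC616 K K' := by
  intro ℓ Φ Dt hctx
  obtain ⟨W, hWfin, hW⟩ := h (totCplx_up963 hctx.cplx) Dt.𝔑₀ Dt.R'.r ℓ Dt.o (eigOf Φ)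
    (level_ne_bot963 hctx.data) (rayGen963 hctx.data) (eigOf_isSph0963 Φ)
  haveI : Module.Finite ℂ W := hWfin
  have hle : cls616 Dt ℓ Φ ≤ W := Submodule.span_le.2 fun ψ hψ => hW ψ hψ
  exact Submodule.finiteDimensional_of_le hle

/-- **CM.03 `StabGC616`** from `ClassOpC`. -/
theorem stabGC616_of (h : ClassOpC K') : StabGC616 K K' := by
  intro ℓ Φ Dt hctx g Hg hg hHg ψ hψ
  exact (h Dt.𝔑₀ Dt.R'.r ℓ Dt.o (eigOf Φ) (level_ne_bot963 hctx.data) (rayGen963 hctx.data)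
    (orbit_dvd963 hctx.data) ψ hψ).1 g Hg (isBadAt_of_isBad hctx.data hg) hHg

/-- The class is a subspace: the span adds nothing. -/
theorem mem_cls616_iff (hlin : ClassLinC K') (ℓ : ℕ) (Φ : HeckeEigensystem K' ℂ)
    (Dt : L2Data K K') (hne : ∃ ψ₀ : G K' → ℂ, IsEigFn Dt.𝔑₀ Dt.R'.r ℓ Dt.o ψ₀ (eigOf Φ))
    (ψ : G K' → ℂ) : ψ ∈ cls616 Dt ℓ Φ ↔ IsEigFn Dt.𝔑₀ Dt.R'.r ℓ Dt.o ψ (eigOf Φ) := by
  obtain ⟨hadd, hsmul⟩ := hlin Dt.𝔑₀ Dt.R'.r ℓ Dt.o (eigOf Φ)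
  constructor
  · intro h
    refine Submodule.span_induction (p := fun ψ _ => IsEigFn Dt.𝔑₀ Dt.R'.r ℓ Dt.o ψ (eigOf Φ))
      (fun x hx => hx) ?_ (fun x y _ _ hx hy => hadd x y hx hy) (fun c x _ hx => hsmul c x hx) h
    obtain ⟨ψ₀, hψ₀⟩ := hne
    have h0 := hsmul 0 ψ₀ hψ₀
    have e : (fun x => (0 : ℂ) * ψ₀ x) = (0 : G K' → ℂ) := by
      funext x
      simp
    rw [e] at h0
    exact h0
  · intro h
    exact Submodule.subset_span h

/-- **CM.09 `SimpleC616`** from `SimpleC`, `ClassLinC`, `ClassOpC`. -/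
theorem simpleC616_of (hS : SimpleC K') (hlin : ClassLinC K') (hop : ClassOpC K') :
    SimpleC616 K K' := by
  classical
  intro ℓ Φ Dt hctx W hWle hWG hWI
  have hcx := totCplx_up963 (K' := K') hctx.cplx
  have h𝔫 := level_ne_bot963 hctx.data
  have hr := rayGen963 hctx.data
  have ho := orbit_dvd963 hctx.data
  have hC := eigOf_isSph0963 Φ
  by_cases hbot : W = ⊥
  · exact Or.inl hbot
  right
  obtain ⟨ψ, hψW, hψ0⟩ := (Submodule.ne_bot_iff W).1 hbot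
  have hmem := mem_cls616_iff hlin ℓ Φ Dt
  -- `ψ` is in the class; the class is not empty
  have hψcl : ψ ∈ cls616 Dt ℓ Φ := hWle hψW
  have hne : ∃ ψ₀ : G K' → ℂ, IsEigFn Dt.𝔑₀ Dt.R'.r ℓ Dt.o ψ₀ (eigOf Φ) := by
    by_contra hemp
    have hspan : cls616 Dt ℓ Φ = ⊥ := by
      rw [eq_bot_iff]
      refine Submodule.span_le.2 fun x hx => ?_
      exact absurd ⟨x, hx⟩ hemp
    rw [hspan, Submodule.mem_bot] at hψcl
    exact hψ0 hψcl
  have hψE : IsEigFn Dt.𝔑₀ Dt.R'.r ℓ Dt.o ψ (eigOf Φ) := (hmem hne ψ).1 hψcl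
  have hψne : ∃ x : G K', ψ x ≠ 0 := by
    by_contra h
    apply hψ0
    funext x
    by_contra hx
    exact h ⟨x, hx⟩
  have key : ∀ f : G K' → ℂ, Reach Dt.𝔑₀ ℓ Dt.o ψ f → f ∈ W := by
    intro f hf
    induction hf with
    | base => exact hψW
    | add _ _ ih ih' => exact W.add_mem ih ih'
    | smul c _ ih => exact W.smul_mem c ih
    | bad g H hg hH _ ih => exact hWG g H (isBad_of_isBadAt963 hctx.data hg) hH _ ih
    | iw j h H hj hh hH _ ih =>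
      refine hWI j hj H (fun x hx => ?_) (fun χ hχ => ?_) _ ih
      · obtain ⟨k₁, k₂, hk₁, hk₂, rfl⟩ := hH.1 x hx
        exact isLocalAtFin_mul129 (isLocalAtFin_mul129 hk₁.1 hh) hk₂.1
      · exact (hmem hne _).2
          ((hop Dt.𝔑₀ Dt.R'.r ℓ Dt.o (eigOf Φ) h𝔫 hr ho χ ((hmem hne χ).1 hχ)).2 j h H hj hh hH)
  refine le_antisymm hWle ?_
  refine Submodule.span_le.2 fun ψ' hψ' => ?_
  exact key ψ' (hS hcx Dt.𝔑₀ Dt.R'.r ℓ Dt.o (eigOf Φ) h𝔫 hr ho hC ψ ψ' hψE hψ' hψne)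

end Fermat.Agent.LT.T7.H963
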