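import Fermat.Agent.LT.T7.H963.Simple

/-!
# Row LT, tower T7, node `SimpleC`, leaf-node `CompressC` (helper963, OFF-MAIN): THE CUT

ADDITIVE.  `CompressC K ⊤` (`T7/H963/Simple.lean`): `ψ`, `χ` in the class, `χ` orthogonal to every
function reached from `ψ`; then `⟨R(g) ψ, χ⟩ = 0` for EVERY `g ∈ GL₂(𝔸_K)`.

## The cut (PROVED top `compressC_of`)

    compressC_of : DecompC K → BadSystemExistsC K → IwSystemExistsC K → StepBadC K → StepIwC K →
        StepSphC K → StepArchC K → ClassLinC K → ClassOpC K → CompressC K ⊤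

* `DecompC` (`Peel`): every `g` is a product `h₁ ⋯ h_m k`, `hᵢ` supported at ONE place (finite or
  infinite), the places pairwise distinct, `k ∈ U(𝔫)` (`g_v ∈ GL₂(𝒪_v)` for almost all `v`).
  In the inductive form `Peel`: `1`; `a h` with `a` peelable and trivial at the place of `h`;
  `a k`.
* `BadSystemExistsC`, `IwSystemExistsC`: full systems of representatives exist (finite index).
* `StepBadC` (averaging at a bad place `v`): `a` trivial at `v`, `h` supported at `v`, `H` a system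
  for `U(𝔫) h U(𝔫) / U(𝔫)`: `⟨R(a) [U h U] f, χ⟩ = |H| ⟨R(a h) f, χ⟩`.
  (`y = u₁ h u₂`, `u₁ = u_v u'`: `R(a y) f = R(u_v) R(a h) f`, `χ` is invariant; `PairC`.)
* `StepIwC`: the same along the orbit.
* `StepSphC` (unramified place `v ∤ 𝔫`): `⟨R(a) f, χ⟩ = 0 ⟹ ⟨R(a h) f, χ⟩ = 0`.
  (`F(h) = ⟨R(a h) f, χ⟩` is bi-invariant under `GL₂(𝒪_v)`, `∑_t F(h t) = √q a_v F(h)`,
  `F(h z) = b_v F(h)`: with `F_d = F(diag(ϖ^d, 1))`, `(q + 1) F_1 = √q a F_0` and
  `q F_{d+1} = √q a F_d - b F_{d-1}`; Cartan decomposition.)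
* `StepArchC` (complex place `w`): the same.  (`F(k₁ torus(d) k₂ z) = F(torus d)` and the mean
  value property under the pairing (Fubini): `4π F(torus d) = 4π (d / sinh d) F(1)`.)
-/

set_option autoImplicit false
set_option linter.unusedSectionVars false
set_option linter.unusedVariables false

open IsDedekindDomain NumberField MeasureTheory AutomorphicForm
open Fermat.Agent.LT.H556.A0

noncomputable section

namespace Fermat.Agent.LT.T7.H963

open Fermat.Agent.LT.T2.H941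

variable {K : Type} [Field K] [NumberField K]

attribute [local instance] Fermat.Agent.LT.T2.borelG

/-! ## 1. Vocabulary and leaves -/

/-- **PEELABLE** elements for the level `𝔫`. -/
inductive Peel (𝔫 : Ideal (𝓞 K)) : G K → Prop
  | one : Peel 𝔫 1
  | fin {a : G K} (h : G K) (v : HeightOneSpectrum (𝓞 K)) : Peel 𝔫 a → TrivAtFin v a →
      IsLocalAtFin v h → Peel 𝔫 (a * h)
  | inf {a : G K} (h : G K) (w : InfinitePlace K) : Peel 𝔫 a → TrivAtInf w a →
      IsLocalAtInf w h → Peel 𝔫 (a * h)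
  | lvl {a : G K} (k : G K) : Peel 𝔫 a → InLevelGroup 𝔫 k → Peel 𝔫 (a * k)

variable (K)

/-- **LEAF: DECOMPOSITION.**  Every element is peelable. -/
def DecompC : Prop := ∀ 𝔫 : Ideal (𝓞 K), 𝔫 ≠ ⊥ → ∀ g : G K, Peel 𝔫 g

/-- **LEAF: systems of representatives of `U(𝔫) h U(𝔫) / U(𝔫)` exist** (`h` trivial at
infinity). -/
def BadSystemExistsC : Prop :=
  ∀ 𝔫 : Ideal (𝓞 K), 𝔫 ≠ ⊥ → ∀ h : G K, (∀ w : InfinitePlace K, TrivAtInf w h) →
    ∃ H : Finset (G K), IsDblCosetSystem 𝔫 h H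

/-- **LEAF: systems of representatives of `I_w h I_w / I_w` exist.** -/
def IwSystemExistsC : Prop :=
  ∀ (w : HeightOneSpectrum (𝓞 K)) (h : G K), IsLocalAtFin w h →
    ∃ H : Finset (G K), IsIwDblSystem w h H

/-- **LEAF: AVERAGING at a bad place.** -/
def StepBadC : Prop :=
  (∀ w : InfinitePlace K, w.IsComplex) →
  ∀ (F : T2.Frame K) (𝔫 : Ideal (𝓞 K)) (r : G K) (l : ℕ) (o : ℕ → HeightOneSpectrum (𝓞 K))
    (C : EigData K), 𝔫 ≠ ⊥ → T5.IsRayGen r → (∀ j < l, (o j).asIdeal ∣ 𝔫) → C.IsSph0 →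
    ∀ v : HeightOneSpectrum (𝓞 K), v.asIdeal ∣ 𝔫 → (∀ j < l, v ≠ o j) →
    ∀ a h : G K, TrivAtFin v a → IsLocalAtFin v h →
    ∀ H : Finset (G K), IsDblCosetSystem 𝔫 h H →
    ∀ f χ : G K → ℂ, IsEigFn 𝔫 r l o f C → IsEigFn 𝔫 r l o χ C →
      T2.pair F (rt a (cosetOp H f)) χ = (H.card : ℂ) * T2.pair F (rt (a * h) f) χ

/-- **LEAF: AVERAGING along the orbit.** -/
def StepIwC : Prop :=
  (∀ w : InfinitePlace K, w.IsComplex) →
  ∀ (F : T2.Frame K) (𝔫 : Ideal (𝓞 K)) (r : G K) (l : ℕ) (o : ℕ → HeightOneSpectrum (𝓞 K))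
    (C : EigData K), 𝔫 ≠ ⊥ → T5.IsRayGen r → (∀ j < l, (o j).asIdeal ∣ 𝔫) → C.IsSph0 →
    ∀ j < l, ∀ a h : G K, TrivAtFin (o j) a → IsLocalAtFin (o j) h →
    ∀ H : Finset (G K), IsIwDblSystem (o j) h H →
    ∀ f χ : G K → ℂ, IsEigFn 𝔫 r l o f C → IsEigFn 𝔫 r l o χ C →
      T2.pair F (rt a (cosetOp H f)) χ = (H.card : ℂ) * T2.pair F (rt (a * h) f) χ

/-- **LEAF: the spherical function at an unramified place.** -/
def StepSphC : Prop :=
  (∀ w : InfinitePlace K, w.IsComplex) →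
  ∀ (F : T2.Frame K) (𝔫 : Ideal (𝓞 K)) (r : G K) (l : ℕ) (o : ℕ → HeightOneSpectrum (𝓞 K))
    (C : EigData K), 𝔫 ≠ ⊥ → T5.IsRayGen r → (∀ j < l, (o j).asIdeal ∣ 𝔫) → C.IsSph0 →
    ∀ v : HeightOneSpectrum (𝓞 K), ¬ v.asIdeal ∣ 𝔫 →
    ∀ a h : G K, TrivAtFin v a → IsLocalAtFin v h →
    ∀ f χ : G K → ℂ, IsEigFn 𝔫 r l o f C → IsEigFn 𝔫 r l o χ C →
      T2.pair F (rt a f) χ = 0 → T2.pair F (rt (a * h) f) χ = 0

/-- **LEAF: the spherical function at an infinite place.** -/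
def StepArchC : Prop :=
  (∀ w : InfinitePlace K, w.IsComplex) →
  ∀ (F : T2.Frame K) (𝔫 : Ideal (𝓞 K)) (r : G K) (l : ℕ) (o : ℕ → HeightOneSpectrum (𝓞 K))
    (C : EigData K), 𝔫 ≠ ⊥ → T5.IsRayGen r → (∀ j < l, (o j).asIdeal ∣ 𝔫) → C.IsSph0 →
    ∀ w : InfinitePlace K, ∀ a h : G K, TrivAtInf w a → IsLocalAtInf w h →
    ∀ f χ : G K → ℂ, IsEigFn 𝔫 r l o f C → IsEigFn 𝔫 r l o χ C →
      T2.pair F (rt a f) χ = 0 → T2.pair F (rt (a * h) f) χ = 0

variable {K}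

/-! ## 2. The assembly -/

/-- The reached functions lie in the class. -/
theorem isEigFn_of_reach (hlin : ClassLinC K) (hop : ClassOpC K) {𝔫 : Ideal (𝓞 K)} (h𝔫 : 𝔫 ≠ ⊥)
    {r : G K} (hr : T5.IsRayGen r) {l : ℕ} {o : ℕ → HeightOneSpectrum (𝓞 K)}
    (ho : ∀ j < l, (o j).asIdeal ∣ 𝔫) {C : EigData K} {ψ : G K → ℂ}
    (hψ : IsEigFn 𝔫 r l o ψ C) {f : G K → ℂ} (hf : Reach 𝔫 l o ψ f) : IsEigFn 𝔫 r l o f C := by
  induction hf with
  | base => exact hψ
  | add _ _ ih ih' => exact (hlin 𝔫 r l o C).1 _ _ ih ih'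
  | smul c _ ih => exact (hlin 𝔫 r l o C).2 c _ ih
  | bad g H hg hH _ ih => exact (hop 𝔫 r l o C h𝔫 hr ho _ ih).1 g H hg hH
  | iw j h H hj hh hH _ ih => exact (hop 𝔫 r l o C h𝔫 hr ho _ ih).2 j h H hj hh hH

/-- A full system of representatives is not empty. -/
theorem card_ne_zero_of_dbl {𝔫 : Ideal (𝓞 K)} {h : G K} {H : Finset (G K)}
    (hH : IsDblCosetSystem 𝔫 h H) (h1 : InLevelGroup 𝔫 (1 : G K)) : (H.card : ℂ) ≠ 0 := by
  obtain ⟨x, hx, -⟩ := hH.2.2 1 h1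
  exact Nat.cast_ne_zero.mpr (Finset.card_ne_zero.mpr ⟨x, hx⟩)

/-- A full system of representatives is not empty. -/
theorem card_ne_zero_of_iw {w : HeightOneSpectrum (𝓞 K)} {h : G K} {H : Finset (G K)}
    (hH : IsIwDblSystem w h H) (h1 : IsIwElt w (1 : G K)) : (H.card : ℂ) ≠ 0 := by
  obtain ⟨x, hx, -⟩ := hH.2.2 1 h1
  exact Nat.cast_ne_zero.mpr (Finset.card_ne_zero.mpr ⟨x, hx⟩)

/-- **LEAF: the unit element** lies in the level group and in the Iwahori subgroups. -/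
def UnitC (K : Type) [Field K] [NumberField K] : Prop :=
  (∀ 𝔫 : Ideal (𝓞 K), InLevelGroup 𝔫 (1 : G K)) ∧
    ∀ w : HeightOneSpectrum (𝓞 K), IsIwElt w (1 : G K)

/-- **THE TOP OF THE LEAF-NODE `CompressC`.** -/
theorem compressC_of (hU : UnitC K) (hD : DecompC K) (hBE : BadSystemExistsC K)
    (hIE : IwSystemExistsC K) (hBad : StepBadC K) (hIw : StepIwC K) (hSph : StepSphC K)
    (hArch : StepArchC K) (hlin : ClassLinC K) (hop : ClassOpC K) :
    CompressC K (fun _ => True) := by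
  classical
  intro hcx F 𝔫 r l o C h𝔫 hr ho hC ψ χ hψ hχ hyp g _
  have hcl : ∀ f : G K → ℂ, Reach 𝔫 l o ψ f → IsEigFn 𝔫 r l o f C :=
    fun f hf => isEigFn_of_reach hlin hop h𝔫 hr ho hψ hf
  have key : ∀ a : G K, Peel 𝔫 a → ∀ f : G K → ℂ, Reach 𝔫 l o ψ f →
      T2.pair F (rt a f) χ = 0 := by
    intro a ha
    induction ha with
    | one =>
      intro f hf
      rw [rt_one]
      exact hyp f hf
    | @fin a h v _ hav hh ih =>
      intro f hf
      by_cases hv : v.asIdeal ∣ 𝔫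
      · by_cases horb : ∃ j < l, v = o j
        · obtain ⟨j, hj, rfl⟩ := horb
          obtain ⟨H, hH⟩ := hIE (o j) h hh
          have h1 := hIw hcx F 𝔫 r l o C h𝔫 hr ho hC j hj a h hav hh H hH f χ (hcl f hf) hχ
          have h2 := ih (cosetOp H f) (Reach.iw j h H hj hh hH hf)
          rw [h1] at h2
          exact (mul_eq_zero.mp h2).resolve_left (card_ne_zero_of_iw hH (hU.2 (o j)))
        · have horb' : ∀ j < l, v ≠ o j := fun j hj hvj => horb ⟨j, hj, hvj⟩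
          obtain ⟨H, hH⟩ := hBE 𝔫 h𝔫 h hh.1
          have hbad : IsBadAt 𝔫 l o h := by
            refine ⟨hh.1, fun v' hv' => hh.2 v' ?_⟩
            rintro rfl
            rcases hv' with hv' | ⟨j, hj, hvj⟩
            · exact hv' hv
            · exact horb' j hj hvj
          have h1 := hBad hcx F 𝔫 r l o C h𝔫 hr ho hC v hv horb' a h hav hh H hH f χ
            (hcl f hf) hχ
          have h2 := ih (cosetOp H f) (Reach.bad h H hbad hH hf)
          rw [h1] at h2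
          exact (mul_eq_zero.mp h2).resolve_left (card_ne_zero_of_dbl hH (hU.1 𝔫))
      · exact hSph hcx F 𝔫 r l o C h𝔫 hr ho hC v hv a h hav hh f χ (hcl f hf) hχ (ih f hf)
    | @inf a h w _ haw hh ih =>
      intro f hf
      exact hArch hcx F 𝔫 r l o C h𝔫 hr ho hC w a h haw hh f χ (hcl f hf) hχ (ih f hf)
    | @lvl a k _ hk ih =>
      intro f hf
      have hinv : rt k f = f := by
        funext x
        exact (hcl f hf).inv.cusp.aut.level_inv k hk x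
      rw [← rt_rt, hinv]
      exact ih f hf
  exact key g (hD 𝔫 h𝔫 g) ψ Reach.base

end Fermat.Agent.LT.T7.H963
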