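import Fermat.Agent.LT.T7.H963.Simple

/-!
# Row LT, tower T7, node `SimpleC`, leaf `GoodPrimeC` (helper963, OFF-MAIN): PROVED

A non-zero ideal of `𝓞 K` is prime to some prime: take a rational prime `p > N(𝔫)` and a prime
`Q` of `𝓞 K` over `p`; if `Q ∣ 𝔫` then `N(𝔫) ∈ 𝔫 ⊆ Q`, so `p ∣ N(𝔫)`.
-/

set_option autoImplicit false

open IsDedekindDomain NumberField

namespace Fermat.Agent.LT.T7.H963

variable (K : Type) [Field K] [NumberField K]

/-- **LEAF `GoodPrimeC`, PROVED.** -/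
theorem goodPrimeC : GoodPrimeC K := by
  intro 𝔫 h𝔫
  have hN : Ideal.absNorm 𝔫 ≠ 0 := by
    rw [Ne, Ideal.absNorm_eq_zero_iff]
    exact h𝔫
  obtain ⟨p, hpN, hp⟩ := Nat.exists_infinite_primes (Ideal.absNorm 𝔫 + 1)
  have hp' : Prime (p : ℤ) := Nat.prime_iff_prime_int.mp hp
  have hp0 : (p : ℤ) ≠ 0 := hp'.ne_zero
  haveI hP0 : (Ideal.span {(p : ℤ)}).IsPrime := (Ideal.span_singleton_prime hp0).2 hp'
  obtain ⟨Q, -, hQprime, hQover⟩ :=
    Ideal.exists_ideal_over_prime_of_isIntegral (S := 𝓞 K) (Ideal.span {(p : ℤ)}) (⊥ : Ideal (𝓞 K))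
      (by
        intro x hx
        rw [Ideal.mem_comap, Ideal.mem_bot] at hx
        have hx0 : x = 0 := by
          have hinj : Function.Injective (algebraMap ℤ (𝓞 K)) :=
            FaithfulSMul.algebraMap_injective ℤ (𝓞 K)
          exact hinj (by rw [hx, map_zero])
        rw [hx0]
        exact Ideal.zero_mem _)
  have hQne : Q ≠ ⊥ := by
    intro h
    have h1 : (p : ℤ) ∈ Q.comap (algebraMap ℤ (𝓞 K)) := by
      rw [hQover]
      exact Ideal.mem_span_singleton_self _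
    rw [h, Ideal.mem_comap, Ideal.mem_bot] at h1
    have hinj : Function.Injective (algebraMap ℤ (𝓞 K)) :=
      FaithfulSMul.algebraMap_injective ℤ (𝓞 K)
    exact hp0 (hinj (by rw [h1, map_zero]))
  refine ⟨⟨Q, hQprime, hQne⟩, ?_⟩
  intro hdvd
  have hle : 𝔫 ≤ Q := Ideal.le_of_dvd hdvd
  have hmem : ((Ideal.absNorm 𝔫 : ℕ) : 𝓞 K) ∈ Q := hle (Ideal.absNorm_mem 𝔫)
  have hmem' : ((Ideal.absNorm 𝔫 : ℕ) : ℤ) ∈ Q.comap (algebraMap ℤ (𝓞 K)) := by
    rw [Ideal.mem_comap]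
    have e : algebraMap ℤ (𝓞 K) ((Ideal.absNorm 𝔫 : ℕ) : ℤ) = ((Ideal.absNorm 𝔫 : ℕ) : 𝓞 K) := by
      simp
    rw [e]
    exact hmem
  rw [hQover, Ideal.mem_span_singleton] at hmem'
  have hdvdN : p ∣ Ideal.absNorm 𝔫 := Int.natCast_dvd_natCast.mp hmem'
  have hle' : p ≤ Ideal.absNorm 𝔫 := Nat.le_of_dvd (Nat.pos_of_ne_zero hN) hdvdN
  omega

end Fermat.Agent.LT.T7.H963
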