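import Fermat.Agent.LT.T7.H963.Simple

/-!
# Row LT, tower T7, node `ClassModelC` (helper736 / helper616): the field `hirr` from `SimpleC`
(helper963, OFF-MAIN, ADDITIVE)

`hirr_of_simpleC`: for ANY model `ι : V →ₗ[ℂ] (GL₂(𝔸_K) → ℂ)` of the class (`ι` injective with
range the class of `IsEigFn 𝔫 r l o · C`) and ANY sets of operators `𝒢`, `ℐ j` on `V` which
contain models of the operators of `Reach` (`cosetOp H` for the systems of the bad elements in
`𝒢`, `cosetOp H` for the Iwahori double coset systems at `o j` in `ℐ j`), a subspace of `V`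
stable under `𝒢` and the `ℐ j` is `⊥` or `⊤`: the hypothesis `hirr` of
`H616.exists_gen_twisted_trace_ne_zero616` and of `SU736.IsClassModel`.
-/

set_option autoImplicit false
set_option linter.unusedSectionVars false
set_option linter.unusedVariables false

open IsDedekindDomain NumberField MeasureTheory AutomorphicForm
open Fermat.Agent.LT.H556.A0

noncomputable section

namespace Fermat.Agent.LT.T7.H963

variable {K : Type} [Field K] [NumberField K]

/-- **`hirr` from `SimpleC`.** -/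
theorem hirr_of_simpleC (hS : SimpleC K) (hcx : ∀ w : InfinitePlace K, w.IsComplex)
    {𝔫 : Ideal (𝓞 K)} (h𝔫 : 𝔫 ≠ ⊥) {r : G K} (hr : T5.IsRayGen r) {l : ℕ}
    {o : ℕ → HeightOneSpectrum (𝓞 K)} (ho : ∀ j < l, (o j).asIdeal ∣ 𝔫) {C : EigData K}
    (hC : C.IsSph0) {V : Type} [AddCommGroup V] [Module ℂ V] (ι : V →ₗ[ℂ] (G K → ℂ))
    (hι : Function.Injective ι) (hcl : ∀ x : V, IsEigFn 𝔫 r l o (ι x) C)
    (𝒢 : Set (Module.End ℂ V)) (ℐ : ℕ → Set (Module.End ℂ V))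
    (hG : ∀ (g : G K) (H : Finset (G K)), IsBadAt 𝔫 l o g → IsDblCosetSystem 𝔫 g H →
      ∃ T ∈ 𝒢, ∀ x : V, ι (T x) = cosetOp H (ι x))
    (hI : ∀ (j : ℕ) (h : G K) (H : Finset (G K)), j < l → IsLocalAtFin (o j) h →
      IsIwDblSystem (o j) h H → ∃ T ∈ ℐ j, ∀ x : V, ι (T x) = cosetOp H (ι x)) :
    ∀ W : Submodule ℂ V, (∀ g ∈ 𝒢, W ≤ W.comap g) →
      (∀ j < l, ∀ h ∈ ℐ j, W ≤ W.comap h) → W = ⊥ ∨ W = ⊤ := by
  classical
  intro W hWG hWI
  by_cases hbot : W = ⊥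
  · exact Or.inl hbot
  right
  obtain ⟨x, hxW, hx0⟩ := (Submodule.ne_bot_iff W).1 hbot
  have hne : ∃ y : G K, ι x y ≠ 0 := by
    by_contra h
    apply hx0
    apply hι
    rw [map_zero]
    funext y
    by_contra hy
    exact h ⟨y, hy⟩
  have key : ∀ f : G K → ℂ, Reach 𝔫 l o (ι x) f → ∃ w ∈ W, ι w = f := by
    intro f hf
    induction hf with
    | base => exact ⟨x, hxW, rfl⟩
    | add _ _ ih ih' =>
      obtain ⟨w, hw, rfl⟩ := ih
      obtain ⟨w', hw', rfl⟩ := ih'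
      exact ⟨w + w', W.add_mem hw hw', by rw [map_add]; rfl⟩
    | smul c _ ih =>
      obtain ⟨w, hw, rfl⟩ := ih
      exact ⟨c • w, W.smul_mem c hw, by rw [map_smul]; rfl⟩
    | bad g H hg hH _ ih =>
      obtain ⟨w, hw, rfl⟩ := ih
      obtain ⟨T, hT, hTι⟩ := hG g H hg hH
      exact ⟨T w, hWG T hT hw, hTι w⟩
    | iw j h H hj hh hH _ ih =>
      obtain ⟨w, hw, rfl⟩ := ih
      obtain ⟨T, hT, hTι⟩ := hI j h H hj hh hH
      exact ⟨T w, hWI j hj T hT hw, hTι w⟩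
  rw [eq_top_iff]
  intro x' _
  obtain ⟨w, hw, hwι⟩ := key (ι x') (hS hcx 𝔫 r l o C h𝔫 hr ho hC (ι x) (ι x') (hcl x) (hcl x') hne)
  have : w = x' := hι hwι
  rw [← this]
  exact hw

end Fermat.Agent.LT.T7.H963
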