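import Fermat.Agent.LT.T7.H963.Avg
import Fermat.Agent.LT.T7.H963.GoodPrime
import Fermat.Agent.LT.T7.H963.Hirr
import Fermat.Agent.LT.T7.H142.StepSph
import Fermat.Agent.LT.T7.H227.Decomp

/-!
# Row LT, tower T7, node `SimpleC` (helper963, OFF-MAIN): THE STATE OF THE NODE

    simpleC_of_leaves : ClassFinC K → ClassLinC K → ClassOpC K → DecompC K →
        BadSystemExistsC K → IwSystemExistsC K → StepSphC K → StepArchC K → SimpleC K

CLOSED here: `GoodPrimeC` (`goodPrimeC`), `UnitC` (`unitC`), `StepBadC` (`stepBadC`), `StepIwC`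
(`stepIwC`), `MatchC` / `PairC` / frame (station T2.10, helper941).
OPEN (registry rows 2368-2374): the eight hypotheses.

v2 (16:30Z): `StepSphC` CLOSED by helper142 (`T7/H142/StepSph.lean`, `stepSphC142`), `DecompC`
CLOSED by helper227 (`T7/H227/Decomp.lean`, `decompC227`), byte-identical copies, rebuilt:

    simpleC_of_open : ClassFinC K → ClassLinC K → ClassOpC K → BadSystemExistsC K →
        IwSystemExistsC K → StepArchC K → SimpleC K
-/

set_option autoImplicit false

open IsDedekindDomain NumberField

namespace Fermat.Agent.LT.T7.H963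

variable {K : Type} [Field K] [NumberField K]

/-- **The node `SimpleC` from its open leaves.** -/
theorem simpleC_of_leaves (hfin : ClassFinC K) (hlin : ClassLinC K) (hop : ClassOpC K)
    (hD : DecompC K) (hBE : BadSystemExistsC K) (hIE : IwSystemExistsC K) (hSph : StepSphC K)
    (hArch : StepArchC K) : SimpleC K :=
  simpleC_of_compress (goodPrimeC K) hfin hlin hop
    (compressC_of (unitC K) hD hBE hIE (stepBadC K) (stepIwC K) hSph hArch hlin hop)

/-- **The node `SimpleC` from the leaves which are still open** (v2). -/
theorem simpleC_of_open (hfin : ClassFinC K) (hlin : ClassLinC K) (hop : ClassOpC K)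
    (hBE : BadSystemExistsC K) (hIE : IwSystemExistsC K) (hArch : StepArchC K) : SimpleC K :=
  simpleC_of_leaves hfin hlin hop (H227.decompC227 K) hBE hIE (H142.stepSphC142 K) hArch

end Fermat.Agent.LT.T7.H963
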