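import Fermat.Agent.LT.T7.H963.SimpleClosed
import Fermat.Agent.LT.T7.H166.CommGI
import Fermat.Agent.LT.T7.H440.Dict
import Fermat.Agent.LT.T7.H930.RsigUp
import Fermat.Agent.LT.T7.H675.LeavesU1
import Fermat.Agent.LT.T7.H616.ClassModelLeavesU
import Fermat.Agent.LT.T7.H228.MulGU

/-!
# Row LT, tower T7, node `ClassModelUC` (CORE FORM, on `H29.UpData K'`): CLOSED (helper963,
OFF-MAIN, ADDITIVE)

    stabSUC963  (K') : CMU675.StabSUC675 K'       (CM.04, from `up_class_Rsig930` of helper930)
    commGIUC963 (K') : CMU675.CommGIUC675 K'      (CM.05, from `cosetOp_comm166` of helper166)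
    dictUC963   (K') : CMU675.DictUC675 K'        (CM.11, the proof of helper440 on `U`)
    classModelUC963 (K') : SU736.ClassModelUC K'            (THE NODE, core form)
    nonVanCoreC963  (K') : H29.NonVanCoreC K'               (NON-VANISHING, core form)
    classModelC963 (K K') : SU736.ClassModelC K K'          (cyclic step, by `classModelC_of_U`)

The eleven leaves, core forms of record (`T7/H675/ClassModelU.lean`, helper675):
CM.01 `finDimUC675_963`, CM.03 `stabGUC675_963`, CM.09 `simpleUC675_963` (helper963,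
`SimpleClosed.lean`); CM.02 `UB675.nontrivUC675_closed` (helper675); CM.06 - CM.08
`CM616.locCommUC616_proved`, `locMoveUC616_proved`, `powUC616_proved` (helper616);
CM.10 `H228.mulGUC228` (helper228); CM.04, CM.05, CM.11 here.
-/

set_option autoImplicit false
set_option linter.unusedSectionVars false
set_option linter.unusedVariables false

open AutomorphicForm IsDedekindDomain NumberField MeasureTheory
open Fermat.Agent.LT.H556.A0

noncomputable section

namespace Fermat.Agent.LT.T7.H963

open Fermat.Agent.LT.H556 Fermat.Agent.LT.T7.SU736 Fermat.Agent.LT.T7.CM616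
  Fermat.Agent.LT.T7.CMU675

attribute [local instance] Fermat.Agent.LT.T5.instMeasurableSpaceG

/-- **CM.04 `StabSUC675`**: `R(σ)` and `R(σ)⁻¹` preserve the class (helper930, `RsigUp.lean`). -/
theorem stabSUC963 (K' : Type) [Field K'] [NumberField K'] : StabSUC675 K' := by
  intro ℓ Φ U hctx ψ hψ
  exact ⟨H930.up_class_Rsig930 hctx.stable hctx.data hψ,
    H930.up_class_RsigInv930 hctx.stable hctx.data hψ⟩

/-- **CM.05 `CommGIUC675`** (helper166, `cosetOp_comm166`). -/
theorem commGIUC963 (K' : Type) [Field K'] [NumberField K'] : CommGIUC675 K' := by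
  intro ℓ Φ U hctx g Hg hbad hHg j hj H hH ψ hψ hHψ x
  have hgv : TrivAtFin (U.o j) g :=
    hbad.2 (U.o j) (Or.inr ⟨j, by rw [hctx.data.deg]; exact hj, rfl⟩)
  exact H166.cosetOp_comm166 hgv hHg.1 hH hψ hHψ x

/-- **CM.11 `DictUC675`** from the stability leaves CM.03 and CM.04 (the proof of helper440,
`dictC_of440`, on the upstairs data). -/
theorem dictUC_of963 {K' : Type} [Field K'] [NumberField K'] (hG : StabGUC675 K')
    (hS : StabSUC675 K') : DictUC675 K' := by
  intro ℓ Φ U hctx g Hg hbad hsys q J hq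
  have hF : T5.IsFrame U.R'.μ U.R'.F := hctx.data.frame'.frame
  have hGp : ∀ ψ ∈ clsU675 U ℓ Φ, cosetLin616 Hg ψ ∈ clsU675 U ℓ Φ :=
    H440.mem_cls_of_map440 (cosetLin616 Hg) (fun ψ hψ => hG ℓ Φ U hctx g Hg hbad hsys ψ hψ)
  have hSp : ∀ ψ ∈ clsU675 U ℓ Φ, rsigLin616 U.s ψ ∈ clsU675 U ℓ Φ :=
    H440.mem_cls_of_map440 (rsigLin616 U.s) (fun ψ hψ => (hS ℓ Φ U hctx ψ hψ).1)
  have hmem : ∀ j : J, q j ∈ clsU675 U ℓ Φ := fun j =>
    Submodule.subset_span (hq.eig j j.2)
  have hcont : ∀ j : J, Continuous (q j) := fun j => (hq.eig j j.2).inv.cusp.cont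
  have hbdd : ∀ j : J, ∃ C : ℝ, ∀ x, ‖q j x‖ ≤ C := fun j => (hq.eig j j.2).inv.cusp.bdd
  -- the family spans
  have hle : clsU675 U ℓ Φ ≤ Submodule.span ℂ (Set.range (fun j : J => q j)) := by
    unfold clsU675 classSp616
    rw [Submodule.span_le]
    intro ψ hψ
    obtain ⟨a, ha⟩ := hq.span ψ hψ
    rw [SetLike.mem_coe, Submodule.mem_span_range_iff_exists_fun]
    refine ⟨fun j => a j, ?_⟩
    funext x
    rw [ha x, Finset.sum_apply, ← Finset.sum_coe_sort J (fun j => a j * q j x)]
    rfl
  -- the operator of the model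
  have hval : ∀ v : clsU675 U ℓ Φ,
      (((restr616 (clsU675 U ℓ Φ) (cosetLin616 Hg) * sOpU675 U ℓ Φ) v : clsU675 U ℓ Φ) :
        G K' → ℂ) = cosetOp Hg (T5.Rsig U.s v) := by
    intro v
    rw [Module.End.mul_apply]
    unfold sOpU675 restr616
    rw [dif_pos hGp, dif_pos hSp]
    rfl
  -- the abstract trace formula
  have key := H440.trace_eq_sum_dual440 (V := clsU675 U ℓ Φ) (ι := J)
    (fun j => (⟨q j, hmem j⟩ : clsU675 U ℓ Φ))
    (fun j v => T5.innerD U.R'.μ U.R'.F (v : G K' → ℂ) (q j)) ?_ ?_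
    (restr616 (clsU675 U ℓ Φ) (cosetLin616 Hg) * sOpU675 U ℓ Φ)
  · rw [key]
    unfold twTrace
    rw [← Finset.sum_coe_sort]
    refine Finset.sum_congr rfl fun j _ => ?_
    rw [hval]
  · intro a j
    have h1 : ((∑ i, a i • (⟨q i, hmem i⟩ : clsU675 U ℓ Φ) : clsU675 U ℓ Φ) : G K' → ℂ)
        = fun x => ∑ i : J, a i * q i x := by
      funext x
      rw [Submodule.coe_sum, Finset.sum_apply]
      rfl
    simp only [h1]
    rw [H440.innerD_sum440 hF (fun i : J => q i) hcont hbdd (hcont j) (hbdd j) a]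
    rw [Finset.sum_eq_single j]
    · rw [hq.norm j j.2, mul_one]
    · intro i _ hij
      rw [hq.orth i i.2 j j.2 (fun h => hij (Subtype.ext h)), mul_zero]
    · intro h
      exact absurd (Finset.mem_univ j) h
  · intro v
    obtain ⟨a, ha⟩ := (Submodule.mem_span_range_iff_exists_fun ℂ).1 (hle v.2)
    refine ⟨a, Subtype.ext ?_⟩
    rw [← ha, Submodule.coe_sum]
    rfl

/-- **CM.11 `DictUC675`, closed.** -/
theorem dictUC963 (K' : Type) [Field K'] [NumberField K'] : DictUC675 K' :=
  dictUC_of963 (stabGUC675_963 K') (stabSUC963 K')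

/-- **THE NODE `ClassModelUC`, core form, CLOSED.** -/
theorem classModelUC963 (K' : Type) [Field K'] [NumberField K'] : SU736.ClassModelUC K' :=
  classModelUC_of675 (finDimUC675_963 K') (UB675.nontrivUC675_closed K') (stabGUC675_963 K')
    (stabSUC963 K') (commGIUC963 K') locCommUC616_proved locMoveUC616_proved powUC616_proved
    (simpleUC675_963 K') (H228.mulGUC228 K') (dictUC963 K')

/-- **NON-VANISHING, core form, CLOSED.** -/
theorem nonVanCoreC963 (K' : Type) [Field K'] [NumberField K'] : H29.NonVanCoreC K' :=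
  SU736.nonVanCoreC_of (classModelUC963 K')

/-- **THE NODE `ClassModelC`, cyclic step, from the core form.** -/
theorem classModelC963 (K K' : Type) [Field K] [NumberField K] [Field K'] [NumberField K']
    [Algebra K K'] : SU736.ClassModelC K K' :=
  SU736.classModelC_of_U (classModelUC963 K')

end Fermat.Agent.LT.T7.H963
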