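import Fermat.Agent.LT.T7.H963.Bridge616
import Fermat.Agent.LT.T7.H675.ClassModelU

/-!
# Row LT, tower T7, node `ClassModelUC` (core form, helper675 on `H29.UpData K'`): the leaves
CM.01 `FinDimUC675`, CM.03 `StabGUC675`, CM.09 `SimpleUC675` from the leaves of the node `SimpleC`
(helper963, OFF-MAIN, ADDITIVE)

    finDimUC675_of  : H963.ClassFinC K' → CMU675.FinDimUC675 K'
    stabGUC675_of   : H963.ClassOpC K'  → CMU675.StabGUC675 K'
    simpleUC675_of  : H963.SimpleC K' → H963.ClassLinC K' → H963.ClassOpC K' → CMU675.SimpleUC675 K'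

The same proofs as `Bridge616.lean` after the renaming `Dt ↦ U`: the context `CtxU675` gives
`K'` totally complex, `𝔑₀ ≠ ⊥` (`𝔑₀ ≥ 𝔑 1 ≠ ⊥`), `r` the generator of the discrete ray
(`frame'`), the orbit divides `𝔑₀` (`orbit_level`, `mem_S'`); `eigOf Φ` is spherical of
parameter `0`.
-/

set_option autoImplicit false
set_option linter.unusedSectionVars false
set_option linter.unusedVariables false

open IsDedekindDomain NumberField MeasureTheory AutomorphicForm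
open Fermat.Agent.LT.H556.A0

noncomputable section

namespace Fermat.Agent.LT.T7.H963

open Fermat.Agent.LT.T7.SU736 Fermat.Agent.LT.T7.CM616 Fermat.Agent.LT.T7.CMU675
  Fermat.Agent.LT.H129 Fermat.Agent.LT.T2.H333

variable {K' : Type} [Field K'] [NumberField K']

/-! ## 1. The context, core form -/

theorem isBad_oneU963 (U : H29.UpData K') : U.IsBad (1 : G K') :=
  ⟨fun w => (trivAtInf_iff129 w 1).2 (map_one _), fun v _ => finComp_one333 v⟩

theorem level_ne_botU963 {ℓ : ℕ} {Φ : HeckeEigensystem K' ℂ} {U : H29.UpData K'}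
    (hU : H29.IsUpData ℓ Φ U) : U.𝔑₀ ≠ ⊥ := by
  intro h0
  have h1 := hU.level_g 1 (isBad_oneU963 U)
  rw [h0, le_bot_iff] at h1
  exact hU.level_ne 1 (isBad_oneU963 U) h1

theorem rayGenU963 {ℓ : ℕ} {Φ : HeckeEigensystem K' ℂ} {U : H29.UpData K'}
    (hU : H29.IsUpData ℓ Φ U) : T5.IsRayGen U.R'.r :=
  hU.frame'.ray

theorem orbit_dvdU963 {ℓ : ℕ} {Φ : HeckeEigensystem K' ℂ} {U : H29.UpData K'}
    (hU : H29.IsUpData ℓ Φ U) : ∀ j < ℓ, (U.o j).asIdeal ∣ U.𝔑₀ :=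
  fun j _ => (hU.mem_S' (U.o j)).1 (hU.orbit_level j)

/-- `IsBadAt` for the base level is `IsBad`. -/
theorem isBad_of_isBadAtU963 {ℓ : ℕ} {Φ : HeckeEigensystem K' ℂ} {U : H29.UpData K'}
    (hU : H29.IsUpData ℓ Φ U) {g : G K'} (hg : IsBadAt U.𝔑₀ ℓ U.o g) : U.IsBad g := by
  refine ⟨hg.1, fun v hv => hg.2 v ?_⟩
  rcases hv with hv | ⟨j, hj, rfl⟩
  · exact Or.inl fun hdvd => hv ((hU.mem_S' v).2 hdvd)
  · exact Or.inr ⟨j, by rw [← hU.deg]; exact hj, rfl⟩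

/-- `IsBad` is `IsBadAt` for the base level. -/
theorem isBadAt_of_isBadU963 {ℓ : ℕ} {Φ : HeckeEigensystem K' ℂ} {U : H29.UpData K'}
    (hU : H29.IsUpData ℓ Φ U) {g : G K'} (hg : U.IsBad g) : IsBadAt U.𝔑₀ ℓ U.o g := by
  refine ⟨hg.1, fun v hv => hg.2 v ?_⟩
  rcases hv with hv | ⟨j, hj, rfl⟩
  · exact Or.inl fun hmem => hv ((hU.mem_S' v).1 hmem)
  · exact Or.inr ⟨j, by rw [hU.deg]; exact hj, rfl⟩

/-! ## 2. The leaves of `ClassModelUC` -/

/-- **CM.01 `FinDimUC675`** from `ClassFinC`. -/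
theorem finDimUC675_of (h : ClassFinC K') : FinDimUC675 K' := by
  intro ℓ Φ U hctx
  obtain ⟨W, hWfin, hW⟩ := h hctx.cplx U.𝔑₀ U.R'.r ℓ U.o (eigOf Φ)
    (level_ne_botU963 hctx.data) (rayGenU963 hctx.data) (eigOf_isSph0963 Φ)
  haveI : Module.Finite ℂ W := hWfin
  have hle : clsU675 U ℓ Φ ≤ W := Submodule.span_le.2 fun ψ hψ => hW ψ hψ
  exact Submodule.finiteDimensional_of_le hle

/-- **CM.03 `StabGUC675`** from `ClassOpC`. -/
theorem stabGUC675_of (h : ClassOpC K') : StabGUC675 K' := by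
  intro ℓ Φ U hctx g Hg hg hHg ψ hψ
  exact (h U.𝔑₀ U.R'.r ℓ U.o (eigOf Φ) (level_ne_botU963 hctx.data) (rayGenU963 hctx.data)
    (orbit_dvdU963 hctx.data) ψ hψ).1 g Hg (isBadAt_of_isBadU963 hctx.data hg) hHg

/-- The class is a subspace: the span adds nothing. -/
theorem mem_classSp_iff963 (hlin : ClassLinC K') (𝔫 : Ideal (𝓞 K')) (r : G K') (ℓ : ℕ)
    (o : ℕ → HeightOneSpectrum (𝓞 K')) (C : EigData K')
    (hne : ∃ ψ₀ : G K' → ℂ, IsEigFn 𝔫 r ℓ o ψ₀ C)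
    (ψ : G K' → ℂ) : ψ ∈ classSp616 𝔫 r ℓ o C ↔ IsEigFn 𝔫 r ℓ o ψ C := by
  obtain ⟨hadd, hsmul⟩ := hlin 𝔫 r ℓ o C
  constructor
  · intro h
    refine Submodule.span_induction (p := fun ψ _ => IsEigFn 𝔫 r ℓ o ψ C)
      (fun x hx => hx) ?_ (fun x y _ _ hx hy => hadd x y hx hy) (fun c x _ hx => hsmul c x hx) h
    obtain ⟨ψ₀, hψ₀⟩ := hne
    have h0 := hsmul 0 ψ₀ hψ₀
    have e : (fun x => (0 : ℂ) * ψ₀ x) = (0 : G K' → ℂ) := by
      funext x
      simp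
    rw [e] at h0
    exact h0
  · intro h
    exact Submodule.subset_span h

/-- **CM.09 `SimpleUC675`** from `SimpleC`, `ClassLinC`, `ClassOpC`. -/
theorem simpleUC675_of (hS : SimpleC K') (hlin : ClassLinC K') (hop : ClassOpC K') :
    SimpleUC675 K' := by
  classical
  intro ℓ Φ U hctx W hWle hWG hWI
  have hcx := hctx.cplx
  have h𝔫 := level_ne_botU963 hctx.data
  have hr := rayGenU963 hctx.data
  have ho := orbit_dvdU963 hctx.data
  have hC := eigOf_isSph0963 Φ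
  by_cases hbot : W = ⊥
  · exact Or.inl hbot
  right
  obtain ⟨ψ, hψW, hψ0⟩ := (Submodule.ne_bot_iff W).1 hbot
  have hmem := mem_classSp_iff963 hlin U.𝔑₀ U.R'.r ℓ U.o (eigOf Φ)
  -- `ψ` is in the class; the class is not empty
  have hψcl : ψ ∈ clsU675 U ℓ Φ := hWle hψW
  have hne : ∃ ψ₀ : G K' → ℂ, IsEigFn U.𝔑₀ U.R'.r ℓ U.o ψ₀ (eigOf Φ) := by
    by_contra hemp
    have hspan : clsU675 U ℓ Φ = ⊥ := by
      rw [eq_bot_iff]
      refine Submodule.span_le.2 fun x hx => ?_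
      exact absurd ⟨x, hx⟩ hemp
    rw [hspan, Submodule.mem_bot] at hψcl
    exact hψ0 hψcl
  have hψE : IsEigFn U.𝔑₀ U.R'.r ℓ U.o ψ (eigOf Φ) := (hmem hne ψ).1 hψcl
  have hψne : ∃ x : G K', ψ x ≠ 0 := by
    by_contra h
    apply hψ0
    funext x
    by_contra hx
    exact h ⟨x, hx⟩
  have key : ∀ f : G K' → ℂ, Reach U.𝔑₀ ℓ U.o ψ f → f ∈ W := by
    intro f hf
    induction hf with
    | base => exact hψW
    | add _ _ ih ih' => exact W.add_mem ih ih'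
    | smul c _ ih => exact W.smul_mem c ih
    | bad g H hg hH _ ih => exact hWG g H (isBad_of_isBadAtU963 hctx.data hg) hH _ ih
    | iw j h H hj hh hH _ ih =>
      refine hWI j hj H (fun x hx => ?_) (fun χ hχ => ?_) _ ih
      · obtain ⟨k₁, k₂, hk₁, hk₂, rfl⟩ := hH.1 x hx
        exact isLocalAtFin_mul129 (isLocalAtFin_mul129 hk₁.1 hh) hk₂.1
      · exact (hmem hne _).2
          ((hop U.𝔑₀ U.R'.r ℓ U.o (eigOf Φ) h𝔫 hr ho χ ((hmem hne χ).1 hχ)).2 j h H hj hh hH)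
  refine le_antisymm hWle ?_
  refine Submodule.span_le.2 fun ψ' hψ' => ?_
  exact key ψ' (hS hcx U.𝔑₀ U.R'.r ℓ U.o (eigOf Φ) h𝔫 hr ho hC ψ ψ' hψE hψ' hψne)

end Fermat.Agent.LT.T7.H963
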