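import Fermat.Agent.LT.T7.H963.SimpleTop
import Fermat.Agent.LT.T7.H963.BridgeU675
import Fermat.Agent.LT.T7.H454.ClassLin
import Fermat.Agent.LT.T7.H258.StepArch
import Fermat.Agent.LT.T7.H429.FinMult
import Fermat.Agent.LT.T7.H837.ClassOp
import Fermat.Agent.LT.T7.H593.DblSys

/-!
# Row LT, tower T7, node `SimpleC` (helper963, OFF-MAIN): THE NODE IS CLOSED

    simpleC963 (K) : H963.SimpleC K                            (UNCONDITIONAL)

and the three leaves of `ClassModelC` which follow from it, in both forms:

    finDimUC675_963 (K') : CMU675.FinDimUC675 K'      finDimC616_963 (K K') : CM616.FinDimC616 K K'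
    stabGUC675_963  (K') : CMU675.StabGUC675 K'       stabGC616_963  (K K') : CM616.StabGC616 K K'
    simpleUC675_963 (K') : CMU675.SimpleUC675 K'      simpleC616_963 (K K') : CM616.SimpleC616 K K'

The leaves (byte-identical copies of the files of their owners, rebuilt here):

* `ClassFinC`  : `H429.classFinGen429` (helper429, `T7/H429/FinMult.lean`; the owner of row 2368,
  helper78, has `classFinC78`, `T7/H78/ClassFinClosed.lean`: either one);
* `ClassLinC`  : `H454.classLinC454` (helper454, row 2369);
* `ClassOpC`   : `H837.classOpC837` (helper837, row 2370; spares `classOpC793`, `classOpC354`);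
* `DecompC`    : `H227.decompC227` (helper227, row 2371);
* `BadSystemExistsC`, `IwSystemExistsC` : `H593DS.badSystemExistsC593`, `iwSystemExistsC593`
  (helper593, spare of row 2372);
* `StepSphC`   : `H142.stepSphC142` (helper142, row 2373);
* `StepArchC`  : `H258.stepArchC258` (helper258, row 2374);
* `GoodPrimeC`, `UnitC`, `StepBadC`, `StepIwC`, the tops: helper963.
-/

set_option autoImplicit false

open IsDedekindDomain NumberField

namespace Fermat.Agent.LT.T7.H963

/-- **LEAF `ClassFinC`, closed** (helper429: finite multiplicity per eigen-data). -/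
theorem classFinC963 (K : Type) [Field K] [NumberField K] : ClassFinC K :=
  fun hcx 𝔫 r l o C h𝔫 hr _ => H429.classFinGen429 hcx 𝔫 r l o C h𝔫 hr

/-- **THE NODE `SimpleC`, closed**: multiplicity one in module form. -/
theorem simpleC963 (K : Type) [Field K] [NumberField K] : SimpleC K :=
  simpleC_of_open (classFinC963 K) (H454.classLinC454 K) (H837.classOpC837 K)
    (H593DS.badSystemExistsC593 K) (H593DS.iwSystemExistsC593 K) (H258.stepArchC258 K)

/-! ## The leaves CM.01, CM.03, CM.09 of `ClassModelC`, core form -/

theorem finDimUC675_963 (K' : Type) [Field K'] [NumberField K'] : CMU675.FinDimUC675 K' :=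
  finDimUC675_of (classFinC963 K')

theorem stabGUC675_963 (K' : Type) [Field K'] [NumberField K'] : CMU675.StabGUC675 K' :=
  stabGUC675_of (H837.classOpC837 K')

theorem simpleUC675_963 (K' : Type) [Field K'] [NumberField K'] : CMU675.SimpleUC675 K' :=
  simpleUC675_of (simpleC963 K') (H454.classLinC454 K') (H837.classOpC837 K')

/-! ## The same leaves, cyclic form (helper616) -/

theorem finDimC616_963 (K K' : Type) [Field K] [NumberField K] [Field K'] [NumberField K']
    [Algebra K K'] : CM616.FinDimC616 K K' :=
  finDimC616_of (classFinC963 K')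

theorem stabGC616_963 (K K' : Type) [Field K] [NumberField K] [Field K'] [NumberField K']
    [Algebra K K'] : CM616.StabGC616 K K' :=
  stabGC616_of (H837.classOpC837 K')

theorem simpleC616_963 (K K' : Type) [Field K] [NumberField K] [Field K'] [NumberField K']
    [Algebra K K'] : CM616.SimpleC616 K K' :=
  simpleC616_of (simpleC963 K') (H454.classLinC454 K') (H837.classOpC837 K')

end Fermat.Agent.LT.T7.H963
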