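import Mathlib
import Fermat.Agent.LT.T7.H57.PreBSpec

/-!
# Row LT, tower T7, leaf PB.0.U6 `PB57.SwapMemUpC57` (registry row 3070, helper963, OFF-MAIN)

`swapMemUpC_of963 (K K') : PB57.SwapUpSumC57 K K' → PB57.SwapMemUpC57 K K'` VERBATIM: the members
of the average upstairs with the swapped components are test functions of the level, jointly
continuous and supported in one compact set, CONDITIONAL on the key identity `SwapUpSumC57`
(leaf PB.0.U0, as allowed by the Spec).  Only the two identities (sum of right translates = sum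
of left translates) and the finiteness of `HU` are used; no normality of the level group, no
property of the elements of `HU`.

Additive: new names only, suffix `963`.
-/

set_option autoImplicit false

open AutomorphicForm IsDedekindDomain NumberField MeasureTheory

noncomputable section

namespace Fermat.Agent.LT.T7.H963.SMU

open Fermat.Agent.LT.H556 Fermat.Agent.LT.H556.A0 Fermat.Agent.LT.T7
open Fermat.Agent.LT.T7.H893 Fermat.Agent.LT.T7.H305 Fermat.Agent.LT.T7.Q797
open Fermat.Agent.LT.T7.PB57

attribute [local instance] Fermat.Agent.LT.T5.instMeasurableSpaceG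

section Abs

variable {F : Type} [Field F] [NumberField F]

/-- The finite union of the right translates of a compact set is compact. -/
lemma isCompact_translates963 (HU : Finset (G F)) {C : Set (G F)} (hC : IsCompact C) :
    IsCompact (⋃ h ∈ HU, (fun x : G F => x * h) '' C) :=
  HU.isCompact_biUnion fun h _ => hC.image (continuous_mul_const h)

lemma mem_translates963 (HU : Finset (G F)) {C : Set (G F)} {x h : G F} (hh : h ∈ HU)
    (hx : x * h⁻¹ ∈ C) : x ∈ ⋃ h ∈ HU, (fun x : G F => x * h) '' C := by
  rw [Set.mem_iUnion₂]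
  exact ⟨h, hh, x * h⁻¹, hx, by simp⟩

/-- **THE ABSTRACT STEP**: a function which is the sum of the right translates and the sum of
the left translates of a test function by a finite set is a test function of the same level. -/
theorem isTestFn_of_sums963 {𝔑 : Ideal (𝓞 F)} {φ ψ : G F → ℂ} (HU : Finset (G F))
    (hφ : T5.IsTestFn 𝔑 T5.trivType φ)
    (hr : ∀ x : G F, ψ x = ∑ h ∈ HU, φ (x * h⁻¹))
    (hl : ∀ x : G F, ψ x = ∑ h ∈ HU, φ (h⁻¹ * x)) :
    T5.IsTestFn 𝔑 T5.trivType ψ := by
  refine ⟨hφ.ktype, ?_, ?_, ?_, ⟨?_, ?_, ?_, ?_⟩⟩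
  · -- continuity
    have : ψ = fun x => ∑ h ∈ HU, φ (x * h⁻¹) := funext hr
    rw [this]
    exact continuous_finset_sum _ fun h _ => hφ.cont.comp (continuous_mul_const h⁻¹)
  · -- compact support
    apply HasCompactSupport.intro (isCompact_translates963 HU hφ.supp)
    intro x hx
    rw [hr]
    apply Finset.sum_eq_zero
    intro h hh
    by_contra hne
    apply hx
    apply mem_translates963 HU hh
    exact subset_tsupport _ hne
  · -- smoothness at infinity
    intro n h ht hs g
    have : (fun t => ψ (g * h t)) = fun t => ∑ k ∈ HU, φ (k⁻¹ * g * h t) := by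
      funext t
      rw [hl]
      apply Finset.sum_congr rfl
      intro k _
      rw [mul_assoc]
    rw [this]
    exact ContDiff.sum fun k _ => hφ.smooth n h ht hs (k⁻¹ * g)
  · -- level, right
    intro u hu g
    rw [hl, hl]
    apply Finset.sum_congr rfl
    intro k _
    rw [← mul_assoc, hφ.inv.level_right u hu]
  · -- level, left
    intro u hu g
    rw [hr, hr]
    apply Finset.sum_congr rfl
    intro k _
    rw [mul_assoc, hφ.inv.level_left u hu]
  · -- type, right
    intro w k hk g
    rw [hl, hl, Finset.mul_sum]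
    apply Finset.sum_congr rfl
    intro k' _
    rw [← mul_assoc, hφ.inv.arch_right w k hk]
  · -- type, left
    intro w k hk g
    rw [hr, hr, Finset.mul_sum]
    apply Finset.sum_congr rfl
    intro k' _
    rw [mul_assoc, hφ.inv.arch_left w k hk]

end Abs

variable (K K' : Type) [Field K] [NumberField K] [Field K'] [NumberField K'] [Algebra K K']

/-- **LEAF PB.0.U6 `SwapMemUpC57`** from the key identity `SwapUpSumC57`, VERBATIM. -/
theorem swapMemUpC_of963 (hS : SwapUpSumC57 K K') : SwapMemUpC57 K K' := by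
  intro ℓ hcyc hℓ htc Φe B hB hram g hg 𝔫 h𝔫 μc hμc T₀ n n₀ m hexp c₁ Φ₁ F₁ hpair fb hfb
    Ω iT iC iT2 iSC iM iB ν iF T T' φ₀ Φ f₀ F hdat
  obtain ⟨HU, -, -, hid⟩ := hS ℓ hcyc hℓ htc Φe B hB hram g hg 𝔫 h𝔫 μc hμc T₀ n n₀ m hexp
    c₁ Φ₁ F₁ hpair fb hfb Ω iT iC iT2 iSC iM iB ν iF T T' φ₀ Φ f₀ F hdat
  obtain ⟨-, htest, -, hcont, -, ⟨C, hC, hsupp⟩, -, -, -⟩ := hdat
  refine ⟨?_, ?_, ?_⟩
  · intro ω
    exact isTestFn_of_sums963 HU (htest ω) (fun x => (hid ω x).1) (fun x => (hid ω x).2)
  · have : (fun p : Ω × G K' => pure305 (T' p.1) (swUp57 B T₀ n₀ (φ₀ p.1)) (Φ p.1) p.2)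
        = fun p : Ω × G K' => ∑ h ∈ HU, pure305 (T' p.1) (φ₀ p.1) (Φ p.1) (p.2 * h⁻¹) := by
      funext p
      exact (hid p.1 p.2).1
    rw [this]
    refine continuous_finset_sum _ fun h _ => ?_
    exact hcont.comp (continuous_fst.prodMk (continuous_snd.mul continuous_const))
  · refine ⟨⋃ h ∈ HU, (fun x : G K' => x * h) '' C, isCompact_translates963 HU hC, ?_⟩
    intro ω x hx
    rw [(hid ω x).1] at hx
    obtain ⟨h, hh, hne⟩ := Finset.exists_ne_zero_of_sum_ne_zero hx
    exact mem_translates963 HU hh (hsupp ω _ hne)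

end Fermat.Agent.LT.T7.H963.SMU

end

section Check963SMU
open Fermat.Agent.LT.T7.H963.SMU in
example (K K' : Type) [Field K] [NumberField K] [Field K'] [NumberField K'] [Algebra K K'] :
    Fermat.Agent.LT.T7.PB57.SwapUpSumC57 K K' → Fermat.Agent.LT.T7.PB57.SwapMemUpC57 K K' :=
  swapMemUpC_of963 K K'
end Check963SMU
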