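import Mathlib
import Fermat.Agent.LT.T7.H963.SwapMemUp

/-!
# Row LT, tower T7, node PB.0 (helper57 `PreBSpec`): THE SWAP UPSTAIRS, kit + SPARES of the
leaves PB.0.U1 `SwapUpTestC57` and PB.0.U2 `SwapUpEKC57` (helper963, OFF-MAIN)

From the key identity `SwapUpSumC57` (leaf PB.0.U0):

* `swapUpFn_eq963`: `swapUpFn57 … = ∑_{h ∈ HU} Φ₁ [] (· h⁻¹) = ∑_{h ∈ HU} Φ₁ [] (h⁻¹ ·)`;
* `swapUpTestC_of963 : SwapUpSumC57 K K' → SwapUpTestC57 K K'` (VERBATIM);
* `swapUpEKC_of963 : SwapUpSumC57 K K' → SwapUpEKC57 K K'` (VERBATIM; only the left invariance of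
  the Haar measure is used: `R(φ(c ·)) Ψ (x) = R(φ) Ψ (x c⁻¹)`).

Additive: new names only, suffix `963`.
-/

set_option autoImplicit false

open AutomorphicForm IsDedekindDomain NumberField MeasureTheory
open scoped ComplexConjugate

noncomputable section

namespace Fermat.Agent.LT.T7.H963.SMU

open Fermat.Agent.LT.H556 Fermat.Agent.LT.H556.A0 Fermat.Agent.LT.T7
open Fermat.Agent.LT.T7.H893 Fermat.Agent.LT.T7.H305 Fermat.Agent.LT.T7.Q797
open Fermat.Agent.LT.T7.PB57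

attribute [local instance] Fermat.Agent.LT.T5.instMeasurableSpaceG

section Abs

variable {F : Type} [Field F] [NumberField F]

/-- The σ-algebra of `GL₂(𝔸_F)` is the Borel σ-algebra. -/
theorem borelSpaceG963 : @BorelSpace (G F) _ (T5.instMeasurableSpaceG) := ⟨rfl⟩

/-- **EK is stable under finite sums of left translates** (left invariance of the Haar measure
only). -/
theorem isEK_of_left_sums963 {μ : Measure (G F)} (hμ : μ.IsHaarMeasure) {φ ψ : G F → ℂ}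
    (HU : Finset (G F)) (c : G F → G F) (hφc : Continuous φ) (hφs : HasCompactSupport φ)
    (hφ : T5.IsEK μ φ) (hl : ∀ x : G F, ψ x = ∑ h ∈ HU, φ (c h * x)) : T5.IsEK μ ψ := by
  intro Ψ hΨ x
  have : BorelSpace (G F) := borelSpaceG963
  show ∫ y, ψ y * Ψ (x * y) ∂μ = 0
  have h1 : (fun y => ψ y * Ψ (x * y)) = fun y => ∑ h ∈ HU, φ (c h * y) * Ψ (x * y) := by
    funext y
    rw [hl, Finset.sum_mul]
  rw [h1, integral_finset_sum]
  · apply Finset.sum_eq_zero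
    intro h _
    have h2 : (fun y => φ (c h * y) * Ψ (x * y))
        = fun y => (fun z => φ z * Ψ (x * (c h)⁻¹ * z)) (c h * y) := by
      funext y
      show _ = φ (c h * y) * Ψ (x * (c h)⁻¹ * (c h * y))
      rw [mul_assoc x, inv_mul_cancel_left]
    rw [h2, integral_mul_left_eq_self (fun z => φ z * Ψ (x * (c h)⁻¹ * z)) (c h)]
    exact hφ Ψ hΨ (x * (c h)⁻¹)
  · intro h _
    have hc : Continuous (fun y => φ (c h * y) * Ψ (x * y)) :=
      (hφc.comp (continuous_const.mul continuous_id)).mul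
        (hΨ.cont.comp (continuous_const.mul continuous_id))
    apply hc.integrable_of_hasCompactSupport
    exact (hφs.comp_homeomorph (Homeomorph.mulLeft (c h))).mul_right

lemma continuous_adjointFn963 {φ : G F → ℂ} (hφ : Continuous φ) :
    Continuous (T5.adjointFn φ) := by
  unfold T5.adjointFn
  exact Complex.continuous_conj.comp (hφ.comp continuous_inv)

lemma hasCompactSupport_adjointFn963 {φ : G F → ℂ} (hφ : HasCompactSupport φ) :
    HasCompactSupport (T5.adjointFn φ) := by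
  have h1 : HasCompactSupport (fun g : G F => φ g⁻¹) :=
    hφ.comp_homeomorph (Homeomorph.inv (G F))
  have h2 : T5.adjointFn φ = (fun z : ℂ => conj z) ∘ fun g : G F => φ g⁻¹ := rfl
  rw [h2]
  exact h1.comp_left (map_zero _)

/-- The adjoint of a sum of right translates is a sum of left translates of the adjoint. -/
lemma adjointFn_sums963 {φ ψ : G F → ℂ} (HU : Finset (G F))
    (hr : ∀ x : G F, ψ x = ∑ h ∈ HU, φ (x * h⁻¹)) (x : G F) :
    T5.adjointFn ψ x = ∑ h ∈ HU, T5.adjointFn φ (h * x) := by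
  unfold T5.adjointFn
  rw [hr, map_sum]
  apply Finset.sum_congr rfl
  intro h _
  rw [mul_inv_rev]

end Abs

variable {K K' : Type} [Field K] [NumberField K] [Field K'] [NumberField K'] [Algebra K K']

/-- **THE SWAPPED FUNCTION UPSTAIRS IS A SUM OF TRANSLATES OF THE FIRST PAIR.** -/
theorem swapUpFn_eq963 {Ω : Type} [TopologicalSpace Ω] [CompactSpace Ω] [MeasurableSpace Ω]
    [BorelSpace Ω] (ν : Measure Ω) [IsFiniteMeasure ν]
    (B : L2Base K K') (T₀ : Finset (HeightOneSpectrum (𝓞 K)))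
    (n₀ : HeightOneSpectrum (𝓞 K') → ℕ)
    (T' : Ω → Finset (HeightOneSpectrum (𝓞 K')))
    (φ₀ : Ω → ∀ w : HeightOneSpectrum (𝓞 K'), GL (Fin 2) (w.adicCompletion K') → ℂ)
    (Φ : Ω → InfinitePlace K' → GL (Fin 2) ℂ → ℂ) (HU : Finset (G K')) (φ' : G K' → ℂ)
    (hcont : Continuous (fun p : Ω × G K' => pure305 (T' p.1) (φ₀ p.1) (Φ p.1) p.2))
    (hφ' : ∀ h : G K', φ' h = ∫ a, pure305 (T' a) (φ₀ a) (Φ a) h ∂ν)
    (hid : ∀ (ω : Ω) (x : G K'),
      pure305 (T' ω) (swUp57 B T₀ n₀ (φ₀ ω)) (Φ ω) x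
          = ∑ h ∈ HU, pure305 (T' ω) (φ₀ ω) (Φ ω) (x * h⁻¹) ∧
        pure305 (T' ω) (swUp57 B T₀ n₀ (φ₀ ω)) (Φ ω) x
          = ∑ h ∈ HU, pure305 (T' ω) (φ₀ ω) (Φ ω) (h⁻¹ * x)) (x : G K') :
    swapUpFn57 B T₀ n₀ ν T' φ₀ Φ x = ∑ h ∈ HU, φ' (x * h⁻¹) ∧
      swapUpFn57 B T₀ n₀ ν T' φ₀ Φ x = ∑ h ∈ HU, φ' (h⁻¹ * x) := by
  have hint : ∀ y : G K', Integrable (fun ω => pure305 (T' ω) (φ₀ ω) (Φ ω) y) ν := by
    intro y
    have hc : Continuous (fun ω => pure305 (T' ω) (φ₀ ω) (Φ ω) y) :=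
      hcont.comp (continuous_id.prodMk continuous_const)
    exact hc.integrable_of_hasCompactSupport (HasCompactSupport.of_compactSpace _)
  constructor
  · show ∫ ω, pure305 (T' ω) (swUp57 B T₀ n₀ (φ₀ ω)) (Φ ω) x ∂ν = _
    have : (fun ω => pure305 (T' ω) (swUp57 B T₀ n₀ (φ₀ ω)) (Φ ω) x)
        = fun ω => ∑ h ∈ HU, pure305 (T' ω) (φ₀ ω) (Φ ω) (x * h⁻¹) :=
      funext fun ω => (hid ω x).1
    rw [this, integral_finset_sum _ fun h _ => hint _]
    exact Finset.sum_congr rfl fun h _ => (hφ' _).symm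
  · show ∫ ω, pure305 (T' ω) (swUp57 B T₀ n₀ (φ₀ ω)) (Φ ω) x ∂ν = _
    have : (fun ω => pure305 (T' ω) (swUp57 B T₀ n₀ (φ₀ ω)) (Φ ω) x)
        = fun ω => ∑ h ∈ HU, pure305 (T' ω) (φ₀ ω) (Φ ω) (h⁻¹ * x) :=
      funext fun ω => (hid ω x).2
    rw [this, integral_finset_sum _ fun h _ => hint _]
    exact Finset.sum_congr rfl fun h _ => (hφ' _).symm

variable (K K')

/-- **SPARE of LEAF PB.0.U1 `SwapUpTestC57`** from the key identity, VERBATIM. -/
theorem swapUpTestC_of963 (hS : SwapUpSumC57 K K') : SwapUpTestC57 K K' := by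
  intro ℓ hcyc hℓ htc Φe B hB hram g hg 𝔫 h𝔫 μc hμc T₀ n n₀ m hexp c₁ Φ₁ F₁ hpair fb hfb
    Ω iT iC iT2 iSC iM iB ν iF T T' φ₀ Φ f₀ F hdat
  obtain ⟨HU, -, -, hid⟩ := hS ℓ hcyc hℓ htc Φe B hB hram g hg 𝔫 h𝔫 μc hμc T₀ n n₀ m hexp
    c₁ Φ₁ F₁ hpair fb hfb Ω iT iC iT2 iSC iM iB ν iF T T' φ₀ Φ f₀ F hdat
  obtain ⟨-, -, -, hcont, -, -, -, hφ', -⟩ := hdat
  have key := swapUpFn_eq963 ν B T₀ n₀ T' φ₀ Φ HU (Φ₁ []) hcont hφ' hid
  exact isTestFn_of_sums963 HU (hpair.up1_test [] (by simp)) (fun x => (key x).1)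
    (fun x => (key x).2)

/-- **SPARE of LEAF PB.0.U2 `SwapUpEKC57`** from the key identity, VERBATIM. -/
theorem swapUpEKC_of963 (hS : SwapUpSumC57 K K') : SwapUpEKC57 K K' := by
  intro ℓ hcyc hℓ htc Φe B hB hram g hg 𝔫 h𝔫 μc hμc T₀ n n₀ m hexp c₁ Φ₁ F₁ hpair fb hfb
    Ω iT iC iT2 iSC iM iB ν iF T T' φ₀ Φ f₀ F hdat
  obtain ⟨HU, -, -, hid⟩ := hS ℓ hcyc hℓ htc Φe B hB hram g hg 𝔫 h𝔫 μc hμc T₀ n n₀ m hexp
    c₁ Φ₁ F₁ hpair fb hfb Ω iT iC iT2 iSC iM iB ν iF T T' φ₀ Φ f₀ F hdat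
  obtain ⟨-, -, -, hcont, -, -, -, hφ', -⟩ := hdat
  have key := swapUpFn_eq963 ν B T₀ n₀ T' φ₀ Φ HU (Φ₁ []) hcont hφ' hid
  have htest := hpair.up1_test [] (by simp)
  have hek := hpair.up1_ek [] (by simp)
  have hμ : B.R'.μ.IsHaarMeasure := hB.frame'.frame.haar
  constructor
  · exact isEK_of_left_sums963 hμ HU (fun h => h⁻¹) htest.cont htest.supp hek.1
      (fun x => (key x).2)
  · exact isEK_of_left_sums963 hμ HU (fun h => h) (continuous_adjointFn963 htest.cont)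
      (hasCompactSupport_adjointFn963 htest.supp) hek.2
      (fun x => adjointFn_sums963 HU (fun y => (key y).1) x)

end Fermat.Agent.LT.T7.H963.SMU

end

section Check963SUK
open Fermat.Agent.LT.T7.H963.SMU in
example (K K' : Type) [Field K] [NumberField K] [Field K'] [NumberField K'] [Algebra K K'] :
    Fermat.Agent.LT.T7.PB57.SwapUpSumC57 K K' → Fermat.Agent.LT.T7.PB57.SwapUpTestC57 K K' :=
  swapUpTestC_of963 K K'
open Fermat.Agent.LT.T7.H963.SMU in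
example (K K' : Type) [Field K] [NumberField K] [Field K'] [NumberField K'] [Algebra K K'] :
    Fermat.Agent.LT.T7.PB57.SwapUpSumC57 K K' → Fermat.Agent.LT.T7.PB57.SwapUpEKC57 K K' :=
  swapUpEKC_of963 K K'
end Check963SUK
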