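import Mathlib
import Fermat.Agent.LT.T7.H973.PreBQSpec
import Fermat.Agent.LT.T7.H963.SwapUpKit

/-!
# Row LT, tower T7, node PBQ.0 (helper973 `PreBQSpec`): THE SWAP UPSTAIRS OVER `ℚ`, SPARES of the
leaves PBQ.0.U6 `SwapMemUpQC973`, PBQ.0.U1 `SwapUpTestQC973`, PBQ.0.U2 `SwapUpEKQC973`
(helper963, OFF-MAIN)

From the key identity `SwapUpSumQC973` (leaf PBQ.0.U0), VERBATIM:

    swapMemUpQC_of963  : SwapUpSumQC973 F → SwapMemUpQC973 F
    swapUpTestQC_of963 : SwapUpSumQC973 F → SwapUpTestQC973 F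
    swapUpEKQC_of963   : SwapUpSumQC973 F → SwapUpEKQC973 F

Mirror of `SwapMemUp.lean` / `SwapUpKit.lean` (cubic); the abstract steps are shared.
Additive: new names only, suffix `963`.
-/

set_option autoImplicit false

open AutomorphicForm IsDedekindDomain NumberField MeasureTheory
open scoped ComplexConjugate

noncomputable section

namespace Fermat.Agent.LT.T7.H963.SMU

open Fermat.Agent.LT.H556 Fermat.Agent.LT.H556.A0 Fermat.Agent.LT.T7 Fermat.Agent.LT.T7.H305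
  Fermat.Agent.LT.T7.L2Q Fermat.Agent.LT.T7.H893 Fermat.Agent.LT.T7.H962
  Fermat.Agent.LT.T7.H732 Fermat.Agent.LT.T7.MQ298 Fermat.Agent.LT.T7.CQ801
  Fermat.Agent.LT.T7.PBQ973

attribute [local instance] Fermat.Agent.LT.T5.instMeasurableSpaceG

section Abs

variable {F : Type} [Field F] [NumberField F]

/-- **THE AVERAGE OF SUMS OF TRANSLATES** is the sum of the translates of the average. -/
theorem avg_sums963 {Ω : Type} [TopologicalSpace Ω] [CompactSpace Ω] [MeasurableSpace Ω]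
    [BorelSpace Ω] (ν : Measure Ω) [IsFiniteMeasure ν] (p s : Ω → G F → ℂ)
    (HU : Finset (G F)) (φ' : G F → ℂ)
    (hcont : Continuous (fun q : Ω × G F => p q.1 q.2))
    (hφ' : ∀ h : G F, φ' h = ∫ a, p a h ∂ν)
    (hid : ∀ (ω : Ω) (x : G F),
      s ω x = ∑ h ∈ HU, p ω (x * h⁻¹) ∧ s ω x = ∑ h ∈ HU, p ω (h⁻¹ * x)) (x : G F) :
    ∫ ω, s ω x ∂ν = ∑ h ∈ HU, φ' (x * h⁻¹) ∧ ∫ ω, s ω x ∂ν = ∑ h ∈ HU, φ' (h⁻¹ * x) := by
  have hint : ∀ y : G F, Integrable (fun ω => p ω y) ν := by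
    intro y
    have hc : Continuous (fun ω => p ω y) :=
      hcont.comp (continuous_id.prodMk continuous_const)
    exact hc.integrable_of_hasCompactSupport (HasCompactSupport.of_compactSpace _)
  constructor
  · have : (fun ω => s ω x) = fun ω => ∑ h ∈ HU, p ω (x * h⁻¹) :=
      funext fun ω => (hid ω x).1
    rw [this, integral_finset_sum _ fun h _ => hint _]
    exact Finset.sum_congr rfl fun h _ => (hφ' _).symm
  · have : (fun ω => s ω x) = fun ω => ∑ h ∈ HU, p ω (h⁻¹ * x) :=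
      funext fun ω => (hid ω x).2
    rw [this, integral_finset_sum _ fun h _ => hint _]
    exact Finset.sum_congr rfl fun h _ => (hφ' _).symm

end Abs

variable (F : Type) [Field F] [NumberField F]

/-- **SPARE of LEAF PBQ.0.U6 `SwapMemUpQC973`** from the key identity, VERBATIM. -/
theorem swapMemUpQC_of963 (hS : SwapUpSumQC973 F) : SwapMemUpQC973 F := by
  intro h3 hiq Φe B hB hram g hg 𝔫 h𝔫 μr μc hμr hμc T₀ n n₀ m hexp c hc c₁ Φ₁ F₁ hpair fb hfb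
    Ω iT iC iT2 iSC iM iB ν iF T T' φ₀ Φ f₀ F0 F1 hdat
  obtain ⟨HU, -, -, hid⟩ := hS h3 hiq Φe B hB hram g hg 𝔫 h𝔫 μr μc hμr hμc T₀ n n₀ m hexp c hc
    c₁ Φ₁ F₁ hpair fb hfb Ω iT iC iT2 iSC iM iB ν iF T T' φ₀ Φ f₀ F0 F1 hdat
  obtain ⟨-, htest, -, -, hcont, -, -, ⟨C, hC, hsupp⟩, -, -, -, -, -⟩ := hdat
  refine ⟨?_, ?_, ?_⟩
  · intro ω
    exact isTestFn_of_sums963 HU (htest ω) (fun x => (hid ω x).1) (fun x => (hid ω x).2)
  · have : (fun p : Ω × G F =>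
          pure305 (T' p.1) (swUpQ973 (toBase962_732 B) T₀ n₀ (φ₀ p.1)) (Φ p.1) p.2)
        = fun p : Ω × G F => ∑ h ∈ HU, pure305 (T' p.1) (φ₀ p.1) (Φ p.1) (p.2 * h⁻¹) := by
      funext p
      exact (hid p.1 p.2).1
    rw [this]
    refine continuous_finset_sum _ fun h _ => ?_
    exact hcont.comp (continuous_fst.prodMk (continuous_snd.mul continuous_const))
  · refine ⟨⋃ h ∈ HU, (fun x : G F => x * h) '' C, isCompact_translates963 HU hC, ?_⟩
    intro ω x hx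
    rw [(hid ω x).1] at hx
    obtain ⟨h, hh, hne⟩ := Finset.exists_ne_zero_of_sum_ne_zero hx
    exact mem_translates963 HU hh (hsupp ω _ hne)

/-- **SPARE of LEAF PBQ.0.U1 `SwapUpTestQC973`** from the key identity, VERBATIM. -/
theorem swapUpTestQC_of963 (hS : SwapUpSumQC973 F) : SwapUpTestQC973 F := by
  intro h3 hiq Φe B hB hram g hg 𝔫 h𝔫 μr μc hμr hμc T₀ n n₀ m hexp c hc c₁ Φ₁ F₁ hpair fb hfb
    Ω iT iC iT2 iSC iM iB ν iF T T' φ₀ Φ f₀ F0 F1 hdat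
  obtain ⟨HU, -, -, hid⟩ := hS h3 hiq Φe B hB hram g hg 𝔫 h𝔫 μr μc hμr hμc T₀ n n₀ m hexp c hc
    c₁ Φ₁ F₁ hpair fb hfb Ω iT iC iT2 iSC iM iB ν iF T T' φ₀ Φ f₀ F0 F1 hdat
  obtain ⟨-, -, -, -, hcont, -, -, -, -, -, hφ', -, -⟩ := hdat
  have key := avg_sums963 ν (fun ω => pure305 (T' ω) (φ₀ ω) (Φ ω))
    (fun ω => pure305 (T' ω) (swUpQ973 (toBase962_732 B) T₀ n₀ (φ₀ ω)) (Φ ω)) HU (Φ₁ [])
    hcont hφ' hid
  exact isTestFn_of_sums963 HU (hpair.up1_test [] (by simp)) (fun x => (key x).1)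
    (fun x => (key x).2)

/-- **SPARE of LEAF PBQ.0.U2 `SwapUpEKQC973`** from the key identity, VERBATIM. -/
theorem swapUpEKQC_of963 (hS : SwapUpSumQC973 F) : SwapUpEKQC973 F := by
  intro h3 hiq Φe B hB hram g hg 𝔫 h𝔫 μr μc hμr hμc T₀ n n₀ m hexp c hc c₁ Φ₁ F₁ hpair fb hfb
    Ω iT iC iT2 iSC iM iB ν iF T T' φ₀ Φ f₀ F0 F1 hdat
  obtain ⟨HU, -, -, hid⟩ := hS h3 hiq Φe B hB hram g hg 𝔫 h𝔫 μr μc hμr hμc T₀ n n₀ m hexp c hc
    c₁ Φ₁ F₁ hpair fb hfb Ω iT iC iT2 iSC iM iB ν iF T T' φ₀ Φ f₀ F0 F1 hdat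
  obtain ⟨-, -, -, -, hcont, -, -, -, -, -, hφ', -, -⟩ := hdat
  have key := avg_sums963 ν (fun ω => pure305 (T' ω) (φ₀ ω) (Φ ω))
    (fun ω => pure305 (T' ω) (swUpQ973 (toBase962_732 B) T₀ n₀ (φ₀ ω)) (Φ ω)) HU (Φ₁ [])
    hcont hφ' hid
  have htest := hpair.up1_test [] (by simp)
  have hek := hpair.up1_ek [] (by simp)
  have hμ : B.R'.μ.IsHaarMeasure := hB.frame'.frame.haar
  constructor
  · exact isEK_of_left_sums963 hμ HU (fun h => h⁻¹) htest.cont htest.supp hek.1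
      (fun x => (key x).2)
  · exact isEK_of_left_sums963 hμ HU (fun h => h) (continuous_adjointFn963 htest.cont)
      (hasCompactSupport_adjointFn963 htest.supp) hek.2
      (fun x => adjointFn_sums963 HU (fun y => (key y).1) x)

end Fermat.Agent.LT.T7.H963.SMU

end

section Check963SUQ
open Fermat.Agent.LT.T7.H963.SMU in
example (F : Type) [Field F] [NumberField F] :
    Fermat.Agent.LT.T7.PBQ973.SwapUpSumQC973 F → Fermat.Agent.LT.T7.PBQ973.SwapMemUpQC973 F :=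
  swapMemUpQC_of963 F
open Fermat.Agent.LT.T7.H963.SMU in
example (F : Type) [Field F] [NumberField F] :
    Fermat.Agent.LT.T7.PBQ973.SwapUpSumQC973 F → Fermat.Agent.LT.T7.PBQ973.SwapUpTestQC973 F :=
  swapUpTestQC_of963 F
open Fermat.Agent.LT.T7.H963.SMU in
example (F : Type) [Field F] [NumberField F] :
    Fermat.Agent.LT.T7.PBQ973.SwapUpSumQC973 F → Fermat.Agent.LT.T7.PBQ973.SwapUpEKQC973 F :=
  swapUpEKQC_of963 F
end Check963SUQ
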