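import Fermat.Agent.LT.T7.H963.Compress
import Fermat.Agent.LT.T2.H879.StripGlobal
import Fermat.Agent.LT.T2.H333.Book
import Fermat.Agent.LT.H129.Local

/-!
# Row LT, tower T7, node `SimpleC`, leaves `UnitC`, `StepBadC`, `StepIwC` (helper963, OFF-MAIN):
PROVED

* `unitC : UnitC K`.
* `stepBadC : StepBadC K`, `stepIwC : StepIwC K` (averaging at a place of the level):
  `⟨R(a) [U h U] f, χ⟩ = |H| ⟨R(a h) f, χ⟩` for `a` trivial at the place of `h`.
  For `y = u₁ h u₂`: `u₁ = p q`, `p` the local part of `u₁` at `v`, `q` trivial at `v`, both in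
  `U(𝔫)`; `a y = p (a h) q u₂`; `f` is invariant under `q u₂`, `χ` under `p`, and the pairing is
  invariant under right translations (`PairC`, CLOSED by helper941).

Assets (byte-identical): `H129/Local` (helper129), `T2/H333/Book` (helper333),
`T2/H879/StripGlobal` (helper879).
-/

set_option autoImplicit false
set_option linter.unusedSectionVars false
set_option linter.unusedVariables false

open IsDedekindDomain NumberField MeasureTheory AutomorphicForm
open Fermat.Agent.LT.H556.A0

noncomputable section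

namespace Fermat.Agent.LT.T7.H963

open Fermat.Agent.LT.T2.H941 Fermat.Agent.LT.H129 Fermat.Agent.LT.T2.H333
  Fermat.Agent.LT.T2.H879

variable {K : Type} [Field K] [NumberField K]

attribute [local instance] Fermat.Agent.LT.T2.borelG

/-! ## 1. Book-keeping -/

theorem finComp_eq_coe963 (v : HeightOneSpectrum (𝓞 K)) (g : G K) :
    finComp v g = ((finCompHom129 v g : GL (Fin 2) (v.adicCompletion K)) :
      Matrix (Fin 2) (Fin 2) (v.adicCompletion K)) := rfl

/-- An element which is trivial at `v` lies in the Iwahori subgroup at `v`. -/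
theorem inIwahori_of_triv963 {v : HeightOneSpectrum (𝓞 K)} {k : G K} (hk : TrivAtFin v k) :
    T5.InIwahori v k := by
  have h1 : finComp v k = 1 := hk
  have h2 : finComp v k⁻¹ = 1 := trivAtFin_inv333 hk
  refine ⟨fun i j => ?_, fun i j => ?_, ?_⟩
  · show Valued.v (finComp v k i j) ≤ 1
    rw [h1]
    exact val_one_entry_le333 v i j
  · show Valued.v (finComp v k⁻¹ i j) ≤ 1
    rw [h2]
    exact val_one_entry_le333 v i j
  · rw [h1]
    simp

theorem trivAtInf_mul963 {w : InfinitePlace K} {g h : G K} (hg : TrivAtInf w g)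
    (hh : TrivAtInf w h) : TrivAtInf w (g * h) := by
  rw [trivAtInf_iff129] at *
  rw [map_mul, hg, hh, mul_one]

theorem trivAtInf_inv963 {w : InfinitePlace K} {g : G K} (hg : TrivAtInf w g) :
    TrivAtInf w g⁻¹ := by
  rw [trivAtInf_iff129] at *
  rw [map_inv, hg, inv_one]

/-- **LEAF `UnitC`, PROVED.** -/
theorem unitC (K : Type) [Field K] [NumberField K] : UnitC K := by
  refine ⟨fun 𝔫 => ⟨fun w => (trivAtInf_iff129 w 1).2 (map_one _), fun v i j => ?_⟩,
    fun w => ⟨isLocalAtFin_one129 w, inIwahori_of_triv963 (finComp_one333 w)⟩⟩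
  rw [inv_one, finComp_one333, sub_self]
  exact ⟨zero_mem_idealClosure333 𝔫 v, zero_mem_idealClosure333 𝔫 v⟩

/-- The local part at `v`. -/
def localPart963 (v : HeightOneSpectrum (𝓞 K)) (u : G K) : G K :=
  locFin129 v (finCompHom129 v u)

theorem isLocalAtFin_localPart963 (v : HeightOneSpectrum (𝓞 K)) (u : G K) :
    IsLocalAtFin v (localPart963 v u) := isLocalAtFin_locFin129 v _

theorem finCompHom_localPart963 (v : HeightOneSpectrum (𝓞 K)) (u : G K) :
    finCompHom129 v (localPart963 v u) = finCompHom129 v u := finCompHom129_locFin129 v _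

theorem finCompHom_localPart_of_ne963 (v : HeightOneSpectrum (𝓞 K)) (u : G K)
    {v' : HeightOneSpectrum (𝓞 K)} (h : v' ≠ v) :
    finCompHom129 v' (localPart963 v u) = 1 := finCompHom129_locFin129_of_ne v _ h

/-- The local part of an element of the level group lies in the level group. -/
theorem inLevelGroup_localPart963 {𝔫 : Ideal (𝓞 K)} (v : HeightOneSpectrum (𝓞 K)) {u : G K}
    (hu : InLevelGroup 𝔫 u) : InLevelGroup 𝔫 (localPart963 v u) := by
  refine ⟨(isLocalAtFin_localPart963 v u).1, fun v' i j => ?_⟩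
  by_cases h : v' = v
  · subst h
    have e1 : finComp v' (localPart963 v' u) = finComp v' u := by
      rw [finComp_eq_coe963, finCompHom_localPart963]
      rfl
    have e2 : finComp v' (localPart963 v' u)⁻¹ = finComp v' u⁻¹ := by
      rw [finComp_eq_coe963, map_inv, finCompHom_localPart963, ← map_inv]
      rfl
    rw [e1, e2]
    exact hu.2 v' i j
  · have e1 : finComp v' (localPart963 v u) = 1 := by
      rw [finComp_eq_coe963, finCompHom_localPart_of_ne963 v u h]
      rfl
    have e2 : finComp v' (localPart963 v u)⁻¹ = 1 := by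
      rw [finComp_eq_coe963, map_inv, finCompHom_localPart_of_ne963 v u h, inv_one]
      rfl
    rw [e1, e2, sub_self]
    exact ⟨zero_mem_idealClosure333 𝔫 v', zero_mem_idealClosure333 𝔫 v'⟩

/-- The rest of an element: trivial at `v`. -/
theorem trivAtFin_rest963 (v : HeightOneSpectrum (𝓞 K)) (u : G K) :
    TrivAtFin v ((localPart963 v u)⁻¹ * u) := by
  rw [trivAtFin_iff129, map_mul, map_inv, finCompHom_localPart963, inv_mul_cancel]

/-- The rest of an element of the level group lies in the level group. -/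
theorem inLevelGroup_rest963 {𝔫 : Ideal (𝓞 K)} (v : HeightOneSpectrum (𝓞 K)) {u : G K}
    (hu : InLevelGroup 𝔫 u) : InLevelGroup 𝔫 ((localPart963 v u)⁻¹ * u) := by
  refine ⟨fun w => trivAtInf_mul963 (trivAtInf_inv963 ((isLocalAtFin_localPart963 v u).1 w))
    (hu.1 w), fun v' i j => ?_⟩
  by_cases h : v' = v
  · subst h
    have e1 : finComp v' ((localPart963 v' u)⁻¹ * u) = 1 := by
      rw [finComp_eq_coe963, map_mul, map_inv, finCompHom_localPart963, inv_mul_cancel]
      rfl
    have e2 : finComp v' ((localPart963 v' u)⁻¹ * u)⁻¹ = 1 := by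
      rw [finComp_eq_coe963, map_inv, map_mul, map_inv, finCompHom_localPart963, inv_mul_cancel,
        inv_one]
      rfl
    rw [e1, e2, sub_self]
    exact ⟨zero_mem_idealClosure333 𝔫 v', zero_mem_idealClosure333 𝔫 v'⟩
  · have e1 : finComp v' ((localPart963 v u)⁻¹ * u) = finComp v' u := by
      rw [finComp_eq_coe963, map_mul, map_inv, finCompHom_localPart_of_ne963 v u h, inv_one,
        one_mul]
      rfl
    have e2 : finComp v' ((localPart963 v u)⁻¹ * u)⁻¹ = finComp v' u⁻¹ := by
      rw [finComp_eq_coe963, map_inv, map_mul, map_inv, finCompHom_localPart_of_ne963 v u h,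
        inv_one, one_mul, ← map_inv]
      rfl
    rw [e1, e2]
    exact hu.2 v' i j

/-! ## 2. The averaging -/

/-- The averaging identity: if every term of the system gives the same pairing. -/
theorem pair_cosetOp963 (hP : PairC K) (F : T2.Frame K) (a h : G K) (H : Finset (G K))
    {f χ : G K → ℂ} (hf : IsAut0 f) (hχ : IsAut0 χ)
    (hterm : ∀ y ∈ H, T2.pair F (rt (a * y) f) χ = T2.pair F (rt (a * h) f) χ) :
    T2.pair F (rt a (cosetOp H f)) χ = (H.card : ℂ) * T2.pair F (rt (a * h) f) χ := by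
  have e : rt a (cosetOp H f) = fun x => ∑ y ∈ H, rt (a * y) f x := by
    funext x
    show ∑ y ∈ H, f (x * a * y) = ∑ y ∈ H, f (x * (a * y))
    refine Finset.sum_congr rfl fun y _ => ?_
    rw [mul_assoc]
  rw [e, pair_sum879 hP F H (fun y => rt (a * y) f) (fun y _ => isAut0_rt (a * y) hf) χ hχ,
    Finset.sum_congr rfl hterm, Finset.sum_const, nsmul_eq_mul]

/-- One term: `y = p (a h) q` with `f` invariant under `q` and `χ` under `p`. -/
theorem pair_term963 (hP : PairC K) (F : T2.Frame K) {a h p q y : G K} {f χ : G K → ℂ}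
    (hf : IsAut0 f) (hχ : IsAut0 χ) (hy : a * y = p * (a * h) * q)
    (hq : ∀ x : G K, f (x * q) = f x) (hp : ∀ x : G K, χ (x * p) = χ x) :
    T2.pair F (rt (a * y) f) χ = T2.pair F (rt (a * h) f) χ := by
  have e1 : rt (a * y) f = rt p (rt (a * h) f) := by
    rw [hy, rt_rt]
    funext x
    show f (x * (p * (a * h) * q)) = f (x * (p * (a * h)))
    rw [← mul_assoc]
    exact hq _
  have e2 : rt p χ = χ := funext fun x => hp x
  have h3 := (hP F).2.2 p (rt (a * h) f) χ (isAut0_rt (a * h) hf) hχ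
  rw [e2] at h3
  rw [e1, h3]

/-- **LEAF `StepBadC`, PROVED** (from `PairC`). -/
theorem stepBadC_of (hP : PairC K) : StepBadC K := by
  intro hcx F 𝔫 r l o C h𝔫 hr ho hC v hv horb a h hav hh H hH f χ hf hχ
  have hfA : IsAut0 f := isAut0_of_isEigFn hcx h𝔫 hC hf
  have hχA : IsAut0 χ := isAut0_of_isEigFn hcx h𝔫 hC hχ
  refine pair_cosetOp963 hP F a h H hfA hχA fun y hy => ?_
  obtain ⟨u₁, u₂, hu₁, hu₂, rfl⟩ := hH.1 y hy
  have hp := isLocalAtFin_localPart963 v u₁
  have hq := trivAtFin_rest963 v u₁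
  have c1 : localPart963 v u₁ * a = a * localPart963 v u₁ := comm_of_local_triv333 hp hav
  have c2 : h * ((localPart963 v u₁)⁻¹ * u₁) = (localPart963 v u₁)⁻¹ * u₁ * h :=
    comm_of_local_triv333 hh hq
  refine pair_term963 hP F (p := localPart963 v u₁)
    (q := (localPart963 v u₁)⁻¹ * u₁ * u₂) hfA hχA ?_ ?_ ?_
  · calc a * (u₁ * h * u₂)
        = a * (localPart963 v u₁ * ((localPart963 v u₁)⁻¹ * u₁ * h) * u₂) := by
          rw [mul_assoc (localPart963 v u₁)⁻¹ u₁ h, mul_inv_cancel_left]
      _ = a * (localPart963 v u₁ * (h * ((localPart963 v u₁)⁻¹ * u₁)) * u₂) := by rw [c2]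
      _ = (a * localPart963 v u₁) * h * ((localPart963 v u₁)⁻¹ * u₁ * u₂) := by
          simp only [mul_assoc]
      _ = (localPart963 v u₁ * a) * h * ((localPart963 v u₁)⁻¹ * u₁ * u₂) := by rw [c1]
      _ = localPart963 v u₁ * (a * h) * ((localPart963 v u₁)⁻¹ * u₁ * u₂) := by
          simp only [mul_assoc]
  · intro x
    rw [← mul_assoc, hf.inv.cusp.aut.level_inv u₂ hu₂,
      hf.inv.cusp.aut.level_inv _ (inLevelGroup_rest963 v hu₁)]
  · intro x
    exact hχ.inv.cusp.aut.level_inv _ (inLevelGroup_localPart963 v hu₁) x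

/-- An Iwahori element at a place of the orbit acts trivially on the class. -/
theorem iw_inv963 {𝔫 : Ideal (𝓞 K)} {r : G K} {l : ℕ} {o : ℕ → HeightOneSpectrum (𝓞 K)}
    {C : EigData K} {f : G K → ℂ} (hf : IsEigFn 𝔫 r l o f C) {j : ℕ} (hj : j < l) {k : G K}
    (hk : IsIwElt (o j) k) (x : G K) : f (x * k) = f x := by
  refine hf.inv.iw k hk.1.1 (fun v hv => hk.1.2 v (hv j hj)) (fun j' hj' => ?_) x
  by_cases h : o j' = o j
  · rw [h]
    exact hk.2
  · exact inIwahori_of_triv963 (hk.1.2 (o j') h)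

/-- **LEAF `StepIwC`, PROVED** (from `PairC`). -/
theorem stepIwC_of (hP : PairC K) : StepIwC K := by
  intro hcx F 𝔫 r l o C h𝔫 hr ho hC j hj a h hav hh H hH f χ hf hχ
  have hfA : IsAut0 f := isAut0_of_isEigFn hcx h𝔫 hC hf
  have hχA : IsAut0 χ := isAut0_of_isEigFn hcx h𝔫 hC hχ
  refine pair_cosetOp963 hP F a h H hfA hχA fun y hy => ?_
  obtain ⟨k₁, k₂, hk₁, hk₂, rfl⟩ := hH.1 y hy
  have c1 : k₁ * a = a * k₁ := comm_of_local_triv333 hk₁.1 hav
  refine pair_term963 hP F (p := k₁) (q := k₂) hfA hχA ?_ (iw_inv963 hf hj hk₂)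
    (iw_inv963 hχ hj hk₁)
  calc a * (k₁ * h * k₂) = (a * k₁) * h * k₂ := by simp only [mul_assoc]
    _ = (k₁ * a) * h * k₂ := by rw [c1]
    _ = k₁ * (a * h) * k₂ := by simp only [mul_assoc]

/-- `StepBadC`, `StepIwC` on the closed station T2.10. -/
theorem stepBadC (K : Type) [Field K] [NumberField K] : StepBadC K := stepBadC_of (pair_uncond K)

theorem stepIwC (K : Type) [Field K] [NumberField K] : StepIwC K := stepIwC_of (pair_uncond K)

end Fermat.Agent.LT.T7.H963
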